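/-
Program G (S56), block GW-Euler, node EU-4(d) concrete (helper18).
Towers `K ⊆ F ⊆ L` of number fields, `F` an intermediate field of the Galois extension `L/K`:
the `T`-units of `L` which lie in `F` are the `T`-units of `F`
(vocabulary of `CFT/Global/HerbrandSUnits`).
-/
import Fermat.Agent.CFT.Global.HerbrandSUnits

set_option autoImplicit false
set_option linter.unusedSectionVars false

open IsDedekindDomain NumberField

namespace Fermat.Agent.TW.Euler.TUnit

open Fermat.Agent.CFT Fermat.Agent.CFT.HerbrandSUnits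

section Tower

variable {K L : Type*} [Field K] [NumberField K] [Field L] [NumberField L] [Algebra K L]
  [IsGalois K L]

/-- In a cyclic group every subgroup is normal. -/
theorem normal_of_forall_mem_zpowers {G : Type*} [Group G] {σ : G}
    (hσ : ∀ g : G, g ∈ Subgroup.zpowers σ) (H : Subgroup G) : H.Normal := by
  refine ⟨fun n hn g => ?_⟩
  obtain ⟨a, rfl⟩ := Subgroup.mem_zpowers_iff.mp (hσ g)
  obtain ⟨b, rfl⟩ := Subgroup.mem_zpowers_iff.mp (hσ n)
  have : σ ^ a * σ ^ b * (σ ^ a)⁻¹ = σ ^ b := by
    rw [← zpow_add, add_comm, zpow_add, mul_inv_cancel_right]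
  rwa [this]

/-- `mem_primesAbove_iff` without any Galois hypothesis. -/
theorem mem_primesAbove_iff_primeBelow {K' L' : Type*} [Field K'] [Field L'] [NumberField L']
    [Algebra K' L'] {T : Set (HeightOneSpectrum (𝓞 K'))} {w : HeightOneSpectrum (𝓞 L')} :
    w ∈ primesAbove K' L' T ↔ primeBelow K' L' w ∈ T := by
  constructor
  · rintro ⟨v, hv, h⟩
    have : v = primeBelow K' L' w := HeightOneSpectrum.ext h.over
    rwa [← this]
  · intro h
    exact ⟨_, h, ⟨rfl⟩⟩

theorem natCast_mem_primeBelow_iff (K' L' : Type*) [Field K'] [Field L'] [NumberField L']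
    [Algebra K' L'] (w : HeightOneSpectrum (𝓞 L')) (q : ℕ) :
    (q : 𝓞 K') ∈ (primeBelow K' L' w).asIdeal ↔ (q : 𝓞 L') ∈ w.asIdeal := by
  change (q : 𝓞 K') ∈ w.asIdeal.under (𝓞 K') ↔ _
  rw [Ideal.under_def, Ideal.mem_comap, map_natCast]

theorem primeBelow_tower (F : IntermediateField K L) (w : HeightOneSpectrum (𝓞 L)) :
    primeBelow K F (primeBelow F L w) = primeBelow K L w := by
  apply HeightOneSpectrum.ext
  exact Ideal.under_under (A := 𝓞 K) (B := 𝓞 F) w.asIdeal

theorem primesAbove_tower (F : IntermediateField K L) (T : Set (HeightOneSpectrum (𝓞 K))) :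
    primesAbove F L (primesAbove K F T) = primesAbove K L T := by
  ext w
  rw [mem_primesAbove_iff_primeBelow, mem_primesAbove_iff_primeBelow,
    mem_primesAbove_iff_primeBelow, primeBelow_tower]

variable (T : Set (HeightOneSpectrum (𝓞 K)))

/-- The inclusion of the `T`-units of the intermediate field `F` into the `T`-units of `L`. -/
noncomputable def towerIncl (F : IntermediateField K L) :
    (primesAbove K F T).unit F →* (primesAbove K L T).unit L where
  toFun y := ⟨Units.map (algebraMap F L : F →* L) (y : Fˣ), by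
    have h : Units.map (algebraMap F L : F →* L) (y : Fˣ) ∈
        (primesAbove F L (primesAbove K F T)).unit L :=
      (sUnitIncl (K := F) (L := L) (primesAbove K F T) y).2
    rw [primesAbove_tower] at h
    exact h⟩
  map_one' := by ext; simp
  map_mul' a b := by ext; simp

theorem coe_towerIncl (F : IntermediateField K L) (y : (primesAbove K F T).unit F) :
    (((towerIncl T F y : (primesAbove K L T).unit L) : Lˣ) : L) = ((y : Fˣ) : F) := rfl

theorem towerIncl_injective (F : IntermediateField K L) :
    Function.Injective (towerIncl T F) := by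
  intro a b hab
  have h := congrArg (fun x : (primesAbove K L T).unit L => ((x : Lˣ) : L)) hab
  simp only [coe_towerIncl] at h
  exact Subtype.ext (Units.ext (Subtype.ext h))

theorem sUnitGal_towerIncl (F : IntermediateField K L) (g : Gal(L/K)) (hg : g ∈ F.fixingSubgroup)
    (y : (primesAbove K F T).unit F) : sUnitGal T g (towerIncl T F y) = towerIncl T F y := by
  apply Subtype.ext
  apply Units.ext
  change g (((y : Fˣ) : F) : L) = (((y : Fˣ) : F) : L)
  exact (IntermediateField.mem_fixingSubgroup_iff F g).mp hg _ (SetLike.coe_mem _)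

/-- A `T`-unit of `L` lying in the intermediate field `F` is a `T`-unit of `F`. -/
theorem exists_towerIncl_eq (F : IntermediateField K L) (x : (primesAbove K L T).unit L)
    (hx : ((x : Lˣ) : L) ∈ F) : ∃ y : (primesAbove K F T).unit F, towerIncl T F y = x := by
  have hy0 : (⟨((x : Lˣ) : L), hx⟩ : F) ≠ 0 := by
    intro h
    exact (x : Lˣ).ne_zero (congrArg Subtype.val h)
  have hmap : Units.map (algebraMap F L : F →* L) (Units.mk0 (⟨((x : Lˣ) : L), hx⟩ : F) hy0) =
      (x : Lˣ) := Units.ext rfl
  have hmem : Units.mk0 (⟨((x : Lˣ) : L), hx⟩ : F) hy0 ∈ (primesAbove K F T).unit F := by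
    apply mem_sUnit_of_map_mem (K := F) (L := L) (primesAbove K F T)
    rw [hmap, primesAbove_tower]
    exact x.2
  exact ⟨⟨Units.mk0 _ hy0, hmem⟩, Subtype.ext hmap⟩

end Tower

end Fermat.Agent.TW.Euler.TUnit
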