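/-
Program G (S56), block GW-Euler, node EU-4(d) concrete, glue (helper18).
Sets of primes given by rational primes (`IdeleDict.primesOver` of main) in the vocabulary of
`HerbrandSUnits.primesAbove`, and the count of such primes prime by prime.
-/
import Fermat.Agent.TW.Euler.TUnit.Tower
import Fermat.Agent.CFT.Global.IdeleDict.DictContent

set_option autoImplicit false
set_option linter.unusedSectionVars false

open IsDedekindDomain NumberField

namespace Fermat.Agent.TW.Euler.TUnit

open Fermat.Agent.CFT Fermat.Agent.CFT.HerbrandSUnits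

section Rational

variable (K L : Type) [Field K] [NumberField K] [Field L] [NumberField L] [Algebra K L]

/-- **(RAT)** The primes of `L` above the primes of `K` above a set `T` of rational primes are the
primes of `L` above `T`. -/
theorem primesAbove_primesOver (T : Set Nat.Primes) :
    primesAbove K L (IdeleDict.primesOver K T) = IdeleDict.primesOver L T := by
  ext w
  rw [mem_primesAbove_iff_primeBelow]
  constructor
  · rintro ⟨q, hq, hmem⟩
    exact ⟨q, hq, (natCast_mem_primeBelow_iff K L w q).mp hmem⟩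
  · rintro ⟨q, hq, hmem⟩
    exact ⟨q, hq, (natCast_mem_primeBelow_iff K L w q).mpr hmem⟩

theorem finite_primesOver (T : Finset Nat.Primes) :
    Finite (IdeleDict.primesOver K (↑T : Set Nat.Primes)) :=
  (IdeleDict.primesOver_finite (K := K) T.finite_toSet).to_subtype

/-- **(RAT-count)** Counting primes above a finite set of rational primes, prime by prime. -/
theorem card_primesOver_subtype (T : Finset Nat.Primes) (P : HeightOneSpectrum (𝓞 K) → Prop) :
    Nat.card {v : IdeleDict.primesOver K (↑T : Set Nat.Primes) // P v.1} =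
      ∑ q ∈ T, Nat.card {v : HeightOneSpectrum (𝓞 K) // ((q : ℕ) : 𝓞 K) ∈ v.asIdeal ∧ P v} := by
  classical
  have hfin : ∀ q : Nat.Primes,
      Finite {v : HeightOneSpectrum (𝓞 K) // ((q : ℕ) : 𝓞 K) ∈ v.asIdeal ∧ P v} := by
    intro q
    have h1 : Finite (IdeleDict.primesOver K ({q} : Set Nat.Primes)) :=
      (IdeleDict.primesOver_finite (K := K) (Set.finite_singleton q)).to_subtype
    exact Finite.of_injective
      (fun v : {v : HeightOneSpectrum (𝓞 K) // ((q : ℕ) : 𝓞 K) ∈ v.asIdeal ∧ P v} =>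
        (⟨v.1, q, rfl, v.2.1⟩ : IdeleDict.primesOver K ({q} : Set Nat.Primes)))
      (fun a b hab => Subtype.ext (congrArg (fun z => z.1) hab))
  let f : (Σ q : T, {v : HeightOneSpectrum (𝓞 K) // ((q.1 : ℕ) : 𝓞 K) ∈ v.asIdeal ∧ P v}) →
      {v : IdeleDict.primesOver K (↑T : Set Nat.Primes) // P v.1} :=
    fun x => ⟨⟨x.2.1, x.1.1, x.1.2, x.2.2.1⟩, x.2.2.2⟩
  have hf : Function.Bijective f := by
    constructor
    · rintro ⟨⟨q, hq⟩, ⟨v, hv1, hv2⟩⟩ ⟨⟨q', hq'⟩, ⟨v', hv1', hv2'⟩⟩ h
      have hv : v = v' := congrArg (fun z => z.1.1) h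
      subst hv
      have hqq : q = q' := IdeleDict.prime_unique v hv1 hv1'
      subst hqq
      rfl
    · rintro ⟨⟨v, q, hq, hv1⟩, hv2⟩
      exact ⟨⟨⟨q, hq⟩, ⟨v, hv1, hv2⟩⟩, rfl⟩
  let e := Equiv.ofBijective f hf
  rw [← Nat.card_congr e, Nat.card_sigma, ← Finset.sum_coe_sort T]

end Rational

end Fermat.Agent.TW.Euler.TUnit
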