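/-
Program G (S56), block GW-Euler, node EU-4(d) (helper18).
Orbit count for cyclic group actions: if `⟨σ⟩` acts transitively on a finite set `Ω` of size `n`,
then `⟨σ ^ j⟩` has exactly `gcd(j, n)` orbits on `Ω`.
Mathlib only.
-/
import Mathlib

set_option autoImplicit false

namespace Fermat.Agent.TW.Euler.TUnit

open MulAction Function

section

variable {G : Type*} [Group G] {Ω : Type*} [MulAction G Ω]

/-- If `G = ⟨σ⟩` acts transitively on the finite set `Ω`, the minimal period of `σ` at any point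
is the cardinality of `Ω`. -/
theorem minimalPeriod_eq_natCard_of_zpowers [Finite Ω] (σ : G)
    (hσ : ∀ g : G, g ∈ Subgroup.zpowers σ) [IsPretransitive G Ω] (ω₀ : Ω) :
    minimalPeriod (σ • ·) ω₀ = Nat.card Ω := by
  classical
  have hfin : Fintype Ω := Fintype.ofFinite Ω
  have horb : orbit (Subgroup.zpowers σ) ω₀ = Set.univ := by
    apply Set.eq_univ_of_forall
    intro ω
    obtain ⟨g, hg⟩ := exists_smul_eq G ω₀ ω
    exact ⟨⟨g, hσ g⟩, hg⟩
  have : Fintype (orbit (Subgroup.zpowers σ) ω₀) := Fintype.ofFinite _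
  rw [minimalPeriod_eq_card, Nat.card_eq_fintype_card]
  rw [← Fintype.card_congr (Equiv.Set.univ Ω)]
  exact Fintype.card_congr (Equiv.setCongr horb)

variable [Finite Ω] (σ : G) (hσ : ∀ g : G, g ∈ Subgroup.zpowers σ) [IsPretransitive G Ω]

include hσ in
theorem exists_zpow_smul_eq (ω₀ ω : Ω) : ∃ t : ℤ, σ ^ t • ω₀ = ω := by
  obtain ⟨g, hg⟩ := exists_smul_eq G ω₀ ω
  obtain ⟨t, ht⟩ := Subgroup.mem_zpowers_iff.mp (hσ g)
  exact ⟨t, by rw [ht, hg]⟩

include hσ in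
theorem zpow_smul_eq_iff (ω₀ : Ω) (t t' : ℤ) :
    σ ^ t • ω₀ = σ ^ t' • ω₀ ↔ (Nat.card Ω : ℤ) ∣ t - t' := by
  rw [← minimalPeriod_eq_natCard_of_zpowers σ hσ ω₀, ← zpow_smul_eq_iff_minimalPeriod_dvd]
  have h1 : σ ^ t' • (σ ^ (t - t') • ω₀) = σ ^ t • ω₀ := by
    rw [smul_smul, ← zpow_add, add_sub_cancel]
  constructor
  · intro h
    exact smul_left_cancel (σ ^ t') (h1.trans h)
  · intro h
    rw [← h1, h]

include hσ in
/-- **Orbit count.** If `G = ⟨σ⟩` acts transitively on the finite nonempty set `Ω`, then the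
subgroup `⟨σ ^ j⟩` has exactly `gcd(j, |Ω|)` orbits on `Ω`. -/
theorem card_orbits_zpowers_pow [Nonempty Ω] (j : ℕ) :
    Nat.card (orbitRel.Quotient (Subgroup.zpowers (σ ^ j)) Ω) = Nat.gcd j (Nat.card Ω) := by
  classical
  set n := Nat.card Ω with hn
  have hnpos : 0 < n := Nat.card_pos
  set g := Nat.gcd j n with hg
  have hgpos : 0 < g := Nat.gcd_pos_of_pos_right _ hnpos
  have : NeZero g := ⟨hgpos.ne'⟩
  obtain ⟨ω₀⟩ := ‹Nonempty Ω›
  choose T hT using exists_zpow_smul_eq σ hσ ω₀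
  -- the invariant
  let φ : Ω → ZMod g := fun ω => ((T ω : ℤ) : ZMod g)
  have hφ : ∀ (t : ℤ) (ω : Ω), σ ^ t • ω₀ = ω → ((t : ℤ) : ZMod g) = φ ω := by
    intro t ω h
    have h2 : σ ^ t • ω₀ = σ ^ (T ω) • ω₀ := by rw [h, hT ω]
    have h3 : (n : ℤ) ∣ t - T ω := (zpow_smul_eq_iff σ hσ ω₀ t (T ω)).mp h2
    have h4 : (g : ℤ) ∣ t - T ω :=
      (Int.natCast_dvd_natCast.mpr (Nat.gcd_dvd_right j n)).trans h3
    exact (ZMod.intCast_eq_intCast_iff_dvd_sub _ _ _).mpr (by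
      have : (g : ℤ) ∣ T ω - t := by rw [← neg_sub]; exact (dvd_neg).mpr h4
      exact this)
  have hjg : ((j : ℤ) : ZMod g) = 0 := by
    rw [Int.cast_natCast, ZMod.natCast_eq_zero_iff]
    exact Nat.gcd_dvd_left j n
  -- `φ` is constant on orbits of `⟨σ ^ j⟩`
  have hconst : ∀ ω ω' : Ω, orbitRel (Subgroup.zpowers (σ ^ j)) Ω ω ω' → φ ω = φ ω' := by
    intro ω ω' h
    obtain ⟨⟨h0, hh0⟩, hsm⟩ := h
    obtain ⟨a, ha⟩ := Subgroup.mem_zpowers_iff.mp hh0
    have hsm' : h0 • ω' = ω := hsm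
    have h5 : σ ^ ((j : ℤ) * a + T ω') • ω₀ = ω := by
      rw [zpow_add, ← smul_smul, hT ω', zpow_mul, zpow_natCast, ha, hsm']
    rw [← hφ _ _ h5, Int.cast_add, Int.cast_mul, hjg, zero_mul, zero_add]
  let ψ : orbitRel.Quotient (Subgroup.zpowers (σ ^ j)) Ω → ZMod g :=
    Quotient.lift φ hconst
  have hψ_surj : Function.Surjective ψ := by
    intro k
    refine ⟨Quotient.mk'' (σ ^ (k.val : ℤ) • ω₀), ?_⟩
    show φ _ = k
    rw [← hφ (k.val : ℤ) _ rfl]
    simp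
  have hψ_inj : Function.Injective ψ := by
    intro q q'
    induction q using Quotient.inductionOn' with | _ ω => ?_
    induction q' using Quotient.inductionOn' with | _ ω' => ?_
    intro h
    have h' : φ ω = φ ω' := h
    apply Quotient.sound'
    -- `T ω - T ω' ∈ gℤ = jℤ + nℤ`
    have h6 : (g : ℤ) ∣ T ω - T ω' := by
      have := (ZMod.intCast_eq_intCast_iff_dvd_sub (T ω') (T ω) g).mp h'.symm
      exact this
    obtain ⟨c, hc⟩ := h6
    have hbez : (g : ℤ) = j * Nat.gcdA j n + n * Nat.gcdB j n := Nat.gcd_eq_gcd_ab j n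
    refine ⟨⟨(σ ^ j) ^ (Nat.gcdA j n * c), Subgroup.zpow_mem_zpowers _ _⟩, ?_⟩
    show (σ ^ j) ^ (Nat.gcdA j n * c) • ω' = ω
    have h7 : T ω = (j : ℤ) * (Nat.gcdA j n * c) + (T ω' + (n : ℤ) * (Nat.gcdB j n * c)) := by
      have : T ω = T ω' + (g : ℤ) * c := by rw [← hc]; ring
      rw [this, hbez]; ring
    have h8 : σ ^ (T ω' + (n : ℤ) * (Nat.gcdB j n * c)) • ω₀ = ω' := by
      rw [← hT ω']
      rw [zpow_smul_eq_iff σ hσ ω₀]
      rw [hT ω']
      exact ⟨Nat.gcdB j n * c, by ring⟩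
    rw [← hT ω, h7, zpow_add, ← smul_smul, h8, zpow_mul σ (j : ℤ) (Nat.gcdA j n * c), zpow_natCast]
  rw [Nat.card_congr (Equiv.ofBijective ψ ⟨hψ_inj, hψ_surj⟩), Nat.card_eq_fintype_card, ZMod.card]

end

end Fermat.Agent.TW.Euler.TUnit
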