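/-
Program G (S56), block GW-Euler, node EU-4(d) (helper18).
Fibre form of the orbit count: if `G = ⟨σ⟩` acts transitively on the finite nonempty set `Ω` and
`r : Ω → Ω'` is a surjection whose fibres are the orbits of `⟨σ ^ j⟩`, then `|Ω'| = gcd(j, |Ω|)`.
Mathlib only.
-/
import Fermat.Agent.TW.Euler.TUnit.OrbitCount

set_option autoImplicit false

namespace Fermat.Agent.TW.Euler.TUnit

open MulAction Function

/-- **Fibre count.** `G = ⟨σ⟩` transitive on the finite nonempty `Ω`, `r : Ω → Ω'` surjective with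
fibres the `⟨σ ^ j⟩`-orbits: then `Ω'` has `gcd(j, |Ω|)` elements. -/
theorem card_eq_gcd_of_fibers {G : Type*} [Group G] {Ω : Type*} [MulAction G Ω] [Finite Ω]
    [Nonempty Ω] [IsPretransitive G Ω] (σ : G) (hσ : ∀ g : G, g ∈ Subgroup.zpowers σ) (j : ℕ)
    {Ω' : Type*} (r : Ω → Ω') (hr : Function.Surjective r)
    (hfib : ∀ a b : Ω, r a = r b ↔ ∃ h ∈ Subgroup.zpowers (σ ^ j), h • a = b) :
    Nat.card Ω' = Nat.gcd j (Nat.card Ω) := by
  rw [← card_orbits_zpowers_pow σ hσ j]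
  symm
  refine Nat.card_congr (Equiv.ofBijective
    (Quotient.lift (s := orbitRel (Subgroup.zpowers (σ ^ j)) Ω) r ?_) ⟨?_, ?_⟩)
  · intro a b hab
    obtain ⟨⟨h, hh⟩, rfl⟩ := (orbitRel_apply.mp hab)
    exact ((hfib b (h • b)).mpr ⟨h, hh, rfl⟩).symm
  · rintro ⟨a⟩ ⟨b⟩ hab
    obtain ⟨h, hh, rfl⟩ := (hfib a b).mp hab
    apply Quotient.sound
    exact orbitRel_apply.mpr ⟨(⟨h, hh⟩ : Subgroup.zpowers (σ ^ j))⁻¹,
      inv_smul_smul (⟨h, hh⟩ : Subgroup.zpowers (σ ^ j)) a⟩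
  · intro y
    obtain ⟨a, rfl⟩ := hr y
    exact ⟨Quotient.mk _ a, rfl⟩

end Fermat.Agent.TW.Euler.TUnit
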