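/-
Program G (S56), block GW-Euler, node EU-4(d) concrete (helper18).
For a cyclic extension `L/K = ⟨σ⟩` of number fields and `F` the fixed field of `σ ^ j`, the number
of infinite places of `F` above an infinite place `w` of `K` is `gcd(j, g_w)`, `g_w` the number of
infinite places of `L` above `w`.  Mathlib only (+ the abstract orbit count).
-/
import Fermat.Agent.TW.Euler.TUnit.FiberCount

set_option autoImplicit false
set_option linter.unusedSectionVars false

open NumberField

namespace Fermat.Agent.TW.Euler.TUnit

section InfCount

/-- The number of infinite places of `L` above the infinite place `w` of `K`. -/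
noncomputable def numAboveInf (K L : Type*) [Field K] [Field L] [Algebra K L]
    (w : InfinitePlace K) : ℕ :=
  Nat.card {w' : InfinitePlace L // w'.comap (algebraMap K L) = w}

/-- The infinite places of `F` are the disjoint union of the fibres over the infinite places of
`K`. -/
theorem card_infinitePlace_eq_sum (K F : Type*) [Field K] [NumberField K] [Field F] [NumberField F]
    [Algebra K F] :
    Fintype.card (InfinitePlace F) = ∑ w : InfinitePlace K, numAboveInf K F w := by
  classical
  rw [Fintype.card_congr
    (Equiv.sigmaFiberEquiv (fun w' : InfinitePlace F => w'.comap (algebraMap K F))).symm,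
    Fintype.card_sigma]
  refine Finset.sum_congr rfl (fun w _ => ?_)
  rw [numAboveInf, Nat.card_eq_fintype_card]

variable {K L : Type*} [Field K] [NumberField K] [Field L] [NumberField L] [Algebra K L]
  [IsGalois K L]

theorem numAboveInf_pos (w : InfinitePlace K) : 0 < numAboveInf K L w := by
  obtain ⟨w', hw'⟩ := InfinitePlace.comap_surjective (K := L) w
  have : Nonempty {w' : InfinitePlace L // w'.comap (algebraMap K L) = w} := ⟨⟨w', hw'⟩⟩
  exact Nat.card_pos

/-- The Galois action on the infinite places above `w`. -/
@[instance_reducible]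
noncomputable def infFiberAction (w : InfinitePlace K) :
    MulAction Gal(L/K) {w' : InfinitePlace L // w'.comap (algebraMap K L) = w} where
  smul g w' := ⟨g • w'.1,
    ((InfinitePlace.mem_orbit_iff (k := K) (K := L)).mp ⟨g, rfl⟩).symm.trans w'.2⟩
  one_smul _ := Subtype.ext (one_smul _ _)
  mul_smul _ _ _ := Subtype.ext (mul_smul _ _ _)

theorem restrictScalars_smul_infinitePlace (F : IntermediateField K L) (τ : Gal(L/F))
    (w : InfinitePlace L) : (τ.restrictScalars K : Gal(L/K)) • w = τ • w := rfl

theorem comap_smul_of_mem_fixingSubgroup (F : IntermediateField K L) (g : Gal(L/K))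
    (hg : g ∈ F.fixingSubgroup) (w : InfinitePlace L) :
    (g • w).comap (algebraMap F L) = w.comap (algebraMap F L) := by
  rw [InfinitePlace.comap_smul]
  congr 1
  ext x
  change g.symm ((x : F) : L) = ((x : F) : L)
  exact (IntermediateField.mem_fixingSubgroup_iff F g⁻¹).mp (inv_mem hg) _ (SetLike.coe_mem _)

/-- **Infinite places of the fixed field of `σ ^ j`.** -/
theorem numAboveInf_fixedField (σ : Gal(L/K)) (hσ : ∀ g : Gal(L/K), g ∈ Subgroup.zpowers σ)
    (j : ℕ) (w : InfinitePlace K) :
    numAboveInf K (IntermediateField.fixedField (Subgroup.zpowers (σ ^ j))) w =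
      Nat.gcd j (numAboveInf K L w) := by
  set F := IntermediateField.fixedField (Subgroup.zpowers (σ ^ j)) with hF
  have hfix : F.fixingSubgroup = Subgroup.zpowers (σ ^ j) :=
    IntermediateField.fixingSubgroup_fixedField _
  rw [numAboveInf, numAboveInf]
  let act : MulAction Gal(L/K) {w' : InfinitePlace L // w'.comap (algebraMap K L) = w} :=
    infFiberAction w
  have hpre : MulAction.IsPretransitive Gal(L/K)
      {w' : InfinitePlace L // w'.comap (algebraMap K L) = w} := by
    refine ⟨fun a b => ?_⟩
    obtain ⟨g, hg⟩ := InfinitePlace.exists_smul_eq_of_comap_eq (k := K) (K := L)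
      (w := a.1) (w' := b.1) (a.2.trans b.2.symm)
    exact ⟨g, Subtype.ext hg⟩
  have hne : Nonempty {w' : InfinitePlace L // w'.comap (algebraMap K L) = w} := by
    obtain ⟨w', hw'⟩ := InfinitePlace.comap_surjective (K := L) w
    exact ⟨⟨w', hw'⟩⟩
  let r : {w' : InfinitePlace L // w'.comap (algebraMap K L) = w} →
      {w' : InfinitePlace F // w'.comap (algebraMap K F) = w} := fun a =>
    ⟨a.1.comap (algebraMap F L), by
      rw [← InfinitePlace.comap_comp, ← IsScalarTower.algebraMap_eq]; exact a.2⟩
  refine card_eq_gcd_of_fibers σ hσ j r ?_ ?_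
  · rintro ⟨w', hw'⟩
    obtain ⟨w'', hw''⟩ := InfinitePlace.comap_surjective (K := L) w'
    refine ⟨⟨w'', ?_⟩, Subtype.ext hw''⟩
    rw [IsScalarTower.algebraMap_eq K F L, InfinitePlace.comap_comp]
    change (w''.comap (algebraMap F L)).comap (algebraMap K F) = w
    have hw''' : w''.comap (algebraMap F L) = w' := hw''
    rw [hw''', hw']
  · intro a b
    constructor
    · intro hab
      have hab' : a.1.comap (algebraMap F L) = b.1.comap (algebraMap F L) :=
        congrArg Subtype.val hab
      obtain ⟨τ, hτ⟩ := InfinitePlace.exists_smul_eq_of_comap_eq (k := F) (K := L) hab'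
      refine ⟨τ.restrictScalars K, ?_, Subtype.ext ?_⟩
      · rw [← hfix]
        exact (IntermediateField.mem_fixingSubgroup_iff F _).mpr
          (fun x hx => τ.commutes ⟨x, hx⟩)
      · change (τ.restrictScalars K : Gal(L/K)) • a.1 = b.1
        rw [restrictScalars_smul_infinitePlace, hτ]
    · rintro ⟨h, hh, rfl⟩
      apply Subtype.ext
      change a.1.comap (algebraMap F L) = (h • a.1).comap (algebraMap F L)
      exact (comap_smul_of_mem_fixingSubgroup F h (hfix ▸ hh) a.1).symm

end InfCount

end Fermat.Agent.TW.Euler.TUnit
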