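/-
Program G (S56), block GW-Euler, node EU-4(d) concrete (helper18).
For a cyclic extension `L/K = ⟨σ⟩` of number fields and `F` the fixed field of `σ ^ j`, the number
of primes of `F` above a prime `v` of `K` is `gcd(j, g_v)`, `g_v` the number of primes of `L`
above `v` (vocabulary of `CFT/Global/HerbrandSUnits`).
-/
import Fermat.Agent.TW.Euler.TUnit.FiberCount
import Fermat.Agent.TW.Euler.TUnit.Tower

set_option autoImplicit false
set_option linter.unusedSectionVars false

open IsDedekindDomain NumberField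
open scoped Pointwise

namespace Fermat.Agent.TW.Euler.TUnit

open Fermat.Agent.CFT Fermat.Agent.CFT.HerbrandSUnits

section PrimeCount

variable {K L : Type*} [Field K] [NumberField K] [Field L] [NumberField L] [Algebra K L]
  [IsGalois K L]

/-- The restriction of scalars of an automorphism over an intermediate field acts on ideals of
`𝓞 L` in the same way. -/
theorem restrictScalars_smul_ideal (F : IntermediateField K L) (τ : Gal(L/F))
    (P : Ideal (𝓞 L)) : (τ.restrictScalars K : Gal(L/K)) • P = τ • P := by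
  ext x
  rw [Ideal.mem_pointwise_smul_iff_inv_smul_mem, Ideal.mem_pointwise_smul_iff_inv_smul_mem]
  rfl

theorem under_smul_of_mem_fixingSubgroup (F : IntermediateField K L) (g : Gal(L/K))
    (hg : g ∈ F.fixingSubgroup) (P : Ideal (𝓞 L)) :
    (g • P).under (𝓞 F) = P.under (𝓞 F) := by
  ext x
  rw [Ideal.under_def, Ideal.under_def, Ideal.mem_comap, Ideal.mem_comap,
    Ideal.mem_pointwise_smul_iff_inv_smul_mem]
  have : g⁻¹ • (algebraMap (𝓞 F) (𝓞 L) x) = algebraMap (𝓞 F) (𝓞 L) x := by
    apply Subtype.ext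
    change g⁻¹ (((x : F) : L)) = ((x : F) : L)
    exact (IntermediateField.mem_fixingSubgroup_iff F g⁻¹).mp (inv_mem hg) _ (SetLike.coe_mem _)
  rw [this]

/-- **Primes of the fixed field of `σ ^ j`.** -/
theorem numAbove_fixedField (σ : Gal(L/K)) (hσ : ∀ g : Gal(L/K), g ∈ Subgroup.zpowers σ) (j : ℕ)
    (v : HeightOneSpectrum (𝓞 K)) :
    numAbove K (IntermediateField.fixedField (Subgroup.zpowers (σ ^ j))) v =
      Nat.gcd j (numAbove K L v) := by
  set F := IntermediateField.fixedField (Subgroup.zpowers (σ ^ j)) with hF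
  have hfix : F.fixingSubgroup = Subgroup.zpowers (σ ^ j) :=
    IntermediateField.fixingSubgroup_fixedField _
  have : v.asIdeal.IsMaximal := v.isMaximal
  have : Finite (v.asIdeal.primesOver (𝓞 L)) :=
    (IsDedekindDomain.primesOver_finite v.asIdeal (𝓞 L)).to_subtype
  rw [numAbove, numAbove, Nat.card_congr (fiberEquivPrimesOver K F v),
    Nat.card_congr (fiberEquivPrimesOver K L v)]
  let act : MulAction Gal(L/K) (v.asIdeal.primesOver (𝓞 L)) := Ideal.instMulActionElemPrimesOver
  have : MulAction.IsPretransitive Gal(L/K) (v.asIdeal.primesOver (𝓞 L)) :=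
    Ideal.isPretransitive_of_isGaloisGroup v.asIdeal Gal(L/K)
  let r : v.asIdeal.primesOver (𝓞 L) → v.asIdeal.primesOver (𝓞 F) := fun P =>
    ⟨P.1.under (𝓞 F), P.2.1.under _, ⟨by
      rw [Ideal.under_under]; exact P.2.2.over⟩⟩
  refine card_eq_gcd_of_fibers σ hσ j r ?_ ?_
  · rintro ⟨Q, hQ1, hQ2⟩
    obtain ⟨⟨P, hP1, hP2⟩⟩ := Q.nonempty_primesOver (S := 𝓞 L)
    refine ⟨⟨P, hP1, ⟨?_⟩⟩, Subtype.ext hP2.over.symm⟩
    rw [← Ideal.under_under (B := 𝓞 F), ← hP2.over]
    exact hQ2.over
  · intro a b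
    constructor
    · intro hab
      have hab' : a.1.under (𝓞 F) = b.1.under (𝓞 F) := congrArg Subtype.val hab
      have ha : a.1.IsPrime := a.2.1
      have hb : b.1.IsPrime := b.2.1
      have hbo : b.1.LiesOver (a.1.under (𝓞 F)) := ⟨hab'⟩
      obtain ⟨τ, hτ⟩ := Ideal.exists_smul_eq_of_isGaloisGroup (a.1.under (𝓞 F)) a.1 b.1 Gal(L/F)
      refine ⟨τ.restrictScalars K, ?_, Subtype.ext ?_⟩
      · rw [← hfix]
        exact (IntermediateField.mem_fixingSubgroup_iff F _).mpr
          (fun x hx => τ.commutes ⟨x, hx⟩)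
      · change (τ.restrictScalars K : Gal(L/K)) • a.1 = b.1
        rw [restrictScalars_smul_ideal, hτ]
    · rintro ⟨h, hh, rfl⟩
      apply Subtype.ext
      change a.1.under (𝓞 F) = (h • a.1).under (𝓞 F)
      exact (under_smul_of_mem_fixingSubgroup F h (hfix ▸ hh) a.1).symm

end PrimeCount

end Fermat.Agent.TW.Euler.TUnit
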