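/-
Program G (S56), block GW-Euler, node EU-4(d) (helper18).
The eigen-projector of an endomorphism of finite order `m` (invertible in the field) and
additivity of eigenspace dimensions in equivariant short exact sequences.
Mathlib only.
-/
import Mathlib

set_option autoImplicit false

namespace Fermat.Agent.TW.Euler.TUnit

open Module

section

variable {K : Type*} [Field K]

/-- The eigen-projector `m⁻¹ Σ_{t < m} ζ^{-t} u^t`. -/
noncomputable def eigProj {Y : Type*} [AddCommGroup Y] [Module K Y] (u : Module.End K Y) (m : ℕ)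
    (ζ : K) : Module.End K Y :=
  ((m : K)⁻¹) • ∑ t ∈ Finset.range m, (ζ⁻¹) ^ t • u ^ t

variable {Y : Type*} [AddCommGroup Y] [Module K Y]

theorem eigProj_apply (u : Module.End K Y) (m : ℕ) (ζ : K) (y : Y) :
    eigProj u m ζ y = ((m : K)⁻¹) • ∑ t ∈ Finset.range m, (ζ⁻¹) ^ t • (u ^ t) y := by
  simp [eigProj, LinearMap.sum_apply]

/-- `u ∘ π = ζ π`. -/
theorem mul_eigProj (u : Module.End K Y) (m : ℕ) (hm : 0 < m) (ζ : K) (hζ : ζ ^ m = 1)
    (hu : u ^ m = 1) : u * eigProj u m ζ = ζ • eigProj u m ζ := by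
  have hζ0 : ζ ≠ 0 := by
    rintro rfl
    rw [zero_pow hm.ne'] at hζ
    exact zero_ne_one hζ
  have hS : u * ∑ t ∈ Finset.range m, (ζ⁻¹) ^ t • u ^ t =
      ζ • ∑ t ∈ Finset.range m, (ζ⁻¹) ^ t • u ^ t := by
    let F : ℕ → Module.End K Y := fun t => (ζ * (ζ⁻¹) ^ t) • u ^ t
    have hF : ∀ t, u * ((ζ⁻¹) ^ t • u ^ t) = F (t + 1) := by
      intro t
      show u * ((ζ⁻¹) ^ t • u ^ t) = (ζ * (ζ⁻¹) ^ (t + 1)) • u ^ (t + 1)
      rw [mul_smul_comm, ← pow_succ']
      congr 1
      rw [pow_succ, mul_comm ((ζ⁻¹) ^ t), ← mul_assoc, mul_inv_cancel₀ hζ0, one_mul]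
    have hF' : ∀ t, ζ • ((ζ⁻¹) ^ t • u ^ t) = F t := by
      intro t
      show ζ • ((ζ⁻¹) ^ t • u ^ t) = (ζ * (ζ⁻¹) ^ t) • u ^ t
      rw [smul_smul]
    rw [Finset.mul_sum, Finset.smul_sum, Finset.sum_congr rfl (fun t _ => hF t),
      Finset.sum_congr rfl (fun t _ => hF' t)]
    have h2 := Finset.sum_range_succ' F m
    have h3 := Finset.sum_range_succ F m
    have h4 : F m = F 0 := by
      show (ζ * (ζ⁻¹) ^ m) • u ^ m = (ζ * (ζ⁻¹) ^ 0) • u ^ 0
      rw [inv_pow, hζ, hu, inv_one, pow_zero, pow_zero]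
    rw [h3, h4] at h2
    exact (add_right_cancel h2).symm
  unfold eigProj
  rw [mul_smul_comm, hS, smul_comm]

/-- `π` is the identity on the eigenspace. -/
theorem eigProj_apply_of_mem (u : Module.End K Y) (m : ℕ) (hmK : (m : K) ≠ 0) (ζ : K)
    (hζ : ζ ^ m = 1) {y : Y} (hy : y ∈ u.eigenspace ζ) : eigProj u m ζ y = y := by
  have hm : 0 < m := Nat.pos_of_ne_zero (by rintro rfl; simp at hmK)
  have hζ0 : ζ ≠ 0 := by
    rintro rfl
    rw [zero_pow hm.ne'] at hζ
    exact zero_ne_one hζ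
  have hpow : ∀ t : ℕ, (u ^ t) y = ζ ^ t • y := by
    intro t
    rw [Module.End.mem_eigenspace_iff] at hy
    induction t with
    | zero => simp
    | succ n ih =>
      rw [pow_succ', Module.End.mul_apply, ih, map_smul, hy, smul_smul, pow_succ]
  rw [eigProj_apply]
  have h1 : ∀ t ∈ Finset.range m, (ζ⁻¹) ^ t • (u ^ t) y = y := by
    intro t _
    rw [hpow, smul_smul, inv_pow, inv_mul_cancel₀ (pow_ne_zero t hζ0), one_smul]
  rw [Finset.sum_congr rfl h1, Finset.sum_const, Finset.card_range, ← Nat.cast_smul_eq_nsmul K,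
    smul_smul, inv_mul_cancel₀ hmK, one_smul]

/-- The range of `π` is the eigenspace. -/
theorem range_eigProj (u : Module.End K Y) (m : ℕ) (hmK : (m : K) ≠ 0) (ζ : K) (hζ : ζ ^ m = 1)
    (hu : u ^ m = 1) : LinearMap.range (eigProj u m ζ) = u.eigenspace ζ := by
  have hm : 0 < m := Nat.pos_of_ne_zero (by rintro rfl; simp at hmK)
  apply le_antisymm
  · rintro _ ⟨y, rfl⟩
    rw [Module.End.mem_eigenspace_iff]
    have := LinearMap.congr_fun (mul_eigProj u m hm ζ hζ hu) y
    simpa using this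
  · intro y hy
    exact ⟨y, eigProj_apply_of_mem u m hmK ζ hζ hy⟩

/-- Naturality of the eigen-projector. -/
theorem map_eigProj {Y' : Type*} [AddCommGroup Y'] [Module K Y'] (u : Module.End K Y)
    (u' : Module.End K Y') (f : Y →ₗ[K] Y') (hf : ∀ y, f (u y) = u' (f y)) (m : ℕ) (ζ : K) (y : Y) :
    f (eigProj u m ζ y) = eigProj u' m ζ (f y) := by
  have hpow : ∀ (t : ℕ) (y : Y), f ((u ^ t) y) = (u' ^ t) (f y) := by
    intro t
    induction t with
    | zero => intro y; simp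
    | succ n ih =>
      intro y
      rw [pow_succ, Module.End.mul_apply, ih, hf, pow_succ, Module.End.mul_apply]
  rw [eigProj_apply, eigProj_apply, map_smul, map_sum]
  congr 1
  apply Finset.sum_congr rfl
  intro t _
  rw [map_smul, hpow]

end

section Exact

variable {K : Type*} [Field K]
variable {Y₁ Y₂ Y₃ : Type*} [AddCommGroup Y₁] [Module K Y₁] [AddCommGroup Y₂] [Module K Y₂]
  [AddCommGroup Y₃] [Module K Y₃] [FiniteDimensional K Y₂]

/-- **Additivity of eigenspace dimensions** along an equivariant short exact sequence, for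
endomorphisms of finite order `m` invertible in the field. -/
theorem finrank_eigenspace_add_of_exact (u₁ : Module.End K Y₁) (u₂ : Module.End K Y₂)
    (u₃ : Module.End K Y₃) (f : Y₁ →ₗ[K] Y₂) (g : Y₂ →ₗ[K] Y₃)
    (hf : ∀ y, f (u₁ y) = u₂ (f y)) (hg : ∀ y, g (u₂ y) = u₃ (g y))
    (hinj : Function.Injective f) (hsurj : Function.Surjective g) (hex : Function.Exact f g)
    (m : ℕ) (hmK : (m : K) ≠ 0) (hu₁ : u₁ ^ m = 1) (hu₂ : u₂ ^ m = 1) (hu₃ : u₃ ^ m = 1)
    (ζ : K) (hζ : ζ ^ m = 1) :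
    finrank K (u₂.eigenspace ζ) = finrank K (u₁.eigenspace ζ) + finrank K (u₃.eigenspace ζ) := by
  -- the restriction of `g` to the eigenspaces
  have hgmem : ∀ y ∈ u₂.eigenspace ζ, g y ∈ u₃.eigenspace ζ := by
    intro y hy
    rw [Module.End.mem_eigenspace_iff] at hy ⊢
    rw [← hg, hy, map_smul]
  let g' : u₂.eigenspace ζ →ₗ[K] u₃.eigenspace ζ :=
    (g.comp (u₂.eigenspace ζ).subtype).codRestrict (u₃.eigenspace ζ) (fun y => hgmem y y.2)
  have hg'surj : Function.Surjective g' := by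
    rintro ⟨z, hz⟩
    obtain ⟨y, rfl⟩ := hsurj z
    have hmem : eigProj u₂ m ζ y ∈ u₂.eigenspace ζ := by
      rw [← range_eigProj u₂ m hmK ζ hζ hu₂]; exact ⟨y, rfl⟩
    refine ⟨⟨eigProj u₂ m ζ y, hmem⟩, ?_⟩
    apply Subtype.ext
    show g (eigProj u₂ m ζ y) = g y
    rw [map_eigProj u₂ u₃ g hg, eigProj_apply_of_mem u₃ m hmK ζ hζ hz]
  -- the kernel of `g'` is the image of the eigenspace of `u₁`
  have hfmem : ∀ y ∈ u₁.eigenspace ζ, f y ∈ u₂.eigenspace ζ := by
    intro y hy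
    rw [Module.End.mem_eigenspace_iff] at hy ⊢
    rw [← hf, hy, map_smul]
  let f' : u₁.eigenspace ζ →ₗ[K] u₂.eigenspace ζ :=
    (f.comp (u₁.eigenspace ζ).subtype).codRestrict (u₂.eigenspace ζ) (fun y => hfmem y y.2)
  have hf'inj : Function.Injective f' := by
    intro a b hab
    apply Subtype.ext
    apply hinj
    exact congrArg Subtype.val hab
  have hker : LinearMap.ker g' = LinearMap.range f' := by
    apply le_antisymm
    · rintro ⟨y, hy⟩ hker
      have hgy : g y = 0 := congrArg Subtype.val (LinearMap.mem_ker.mp hker)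
      obtain ⟨x, rfl⟩ := (hex y).mp hgy
      have hx : eigProj u₁ m ζ x ∈ u₁.eigenspace ζ := by
        rw [Module.End.mem_eigenspace_iff]
        have hm : 0 < m := Nat.pos_of_ne_zero (by rintro rfl; simp at hmK)
        have := LinearMap.congr_fun (mul_eigProj u₁ m hm ζ hζ hu₁) x
        simpa using this
      refine ⟨⟨eigProj u₁ m ζ x, hx⟩, ?_⟩
      apply Subtype.ext
      show f (eigProj u₁ m ζ x) = f x
      rw [map_eigProj u₁ u₂ f hf, eigProj_apply_of_mem u₂ m hmK ζ hζ hy]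
    · rintro _ ⟨x, rfl⟩
      rw [LinearMap.mem_ker]
      apply Subtype.ext
      show g (f x) = 0
      exact (hex (f x)).mpr ⟨x, rfl⟩
  have hrn := LinearMap.finrank_range_add_finrank_ker g'
  rw [LinearMap.range_eq_top.mpr hg'surj, finrank_top, hker,
    LinearMap.finrank_range_of_inj hf'inj] at hrn
  rw [← hrn, add_comm]

end Exact

end Fermat.Agent.TW.Euler.TUnit
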