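/-
Program G (S56), block GW-Euler, node EU-4(d) abstract core (helper18).
Arithmetic: the triangular system `Σ_{e ∣ j} φ(e) c(e) = r(j)` has at most one solution, and
`Σ_{e ∣ j} φ(e) #{i : e ∣ n i} = Σ_i gcd(j, n i)`.
Mathlib only.
-/
import Mathlib

set_option autoImplicit false

namespace Fermat.Agent.TW.Euler.TUnit

/-- Uniqueness for the triangular system `Σ_{e ∣ j} φ(e) c(e)`, `j ∣ m`. -/
theorem eq_of_sum_totient_mul_eq (m : ℕ) (hm : 0 < m) (c b : ℕ → ℕ)
    (h : ∀ j, j ∣ m → ∑ e ∈ j.divisors, Nat.totient e * c e = ∑ e ∈ j.divisors, Nat.totient e * b e) :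
    ∀ j, j ∣ m → c j = b j := by
  intro j
  induction j using Nat.strong_induction_on with
  | _ j ih =>
    intro hj
    have hjpos : 0 < j := Nat.pos_of_dvd_of_pos hj hm
    have hsum := h j hj
    rw [← Nat.insert_self_properDivisors hjpos.ne',
      Finset.sum_insert Nat.self_notMem_properDivisors,
      Finset.sum_insert Nat.self_notMem_properDivisors] at hsum
    have hrest : ∑ e ∈ j.properDivisors, Nat.totient e * c e =
        ∑ e ∈ j.properDivisors, Nat.totient e * b e := by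
      apply Finset.sum_congr rfl
      intro e he
      rw [Nat.mem_properDivisors] at he
      rw [ih e he.2 (he.1.trans hj)]
    rw [hrest] at hsum
    have h2 : Nat.totient j * c j = Nat.totient j * b j := Nat.add_right_cancel hsum
    exact Nat.eq_of_mul_eq_mul_left (Nat.totient_pos.mpr hjpos) h2

/-- `Σ_{e ∣ j} φ(e) #{i : e ∣ n i} = Σ_i gcd(j, n i)`. -/
theorem sum_totient_mul_card_dvd {ι : Type*} [Fintype ι] (n : ι → ℕ) (j : ℕ) (hj : 0 < j) :
    ∑ e ∈ j.divisors, Nat.totient e * Nat.card {i : ι // e ∣ n i} = ∑ i, Nat.gcd j (n i) := by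
  classical
  have h1 : ∀ e, Nat.card {i : ι // e ∣ n i} = ∑ i : ι, if e ∣ n i then 1 else 0 := by
    intro e
    rw [Nat.card_eq_fintype_card, Fintype.card_subtype, Finset.card_filter]
  simp_rw [h1, Finset.mul_sum]
  rw [Finset.sum_comm]
  apply Finset.sum_congr rfl
  intro i _
  have h2 : ∑ e ∈ j.divisors, Nat.totient e * (if e ∣ n i then 1 else 0) =
      ∑ e ∈ (Nat.gcd j (n i)).divisors, Nat.totient e := by
    have h3 : ∀ e, Nat.totient e * (if e ∣ n i then 1 else 0) =
        if e ∣ n i then Nat.totient e else 0 := by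
      intro e; split_ifs <;> simp
    simp_rw [h3]
    rw [← Finset.sum_filter]
    apply Finset.sum_congr _ (fun _ _ => rfl)
    ext e
    simp only [Finset.mem_filter, Nat.mem_divisors]
    constructor
    · rintro ⟨⟨h1, _⟩, h2⟩
      exact ⟨Nat.dvd_gcd h1 h2, (Nat.gcd_pos_of_pos_left _ hj).ne'⟩
    · rintro ⟨h1, _⟩
      exact ⟨⟨h1.trans (Nat.gcd_dvd_left _ _), hj.ne'⟩, h1.trans (Nat.gcd_dvd_right _ _)⟩
  rw [h2, Nat.sum_totient]

/-- Solving the rank system: if `Σ_{e ∣ j} φ(e) a(e) + 1 = Σ_i gcd(j, n i)` for all `j ∣ m`, then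
`a(e) + [e = 1] = #{i : e ∣ n i}` for all `e ∣ m`. -/
theorem exponent_eq_of_rank_system {ι : Type*} [Fintype ι] (n : ι → ℕ) (m : ℕ) (hm : 0 < m)
    (a : ℕ → ℕ)
    (h : ∀ j, j ∣ m → ∑ e ∈ j.divisors, Nat.totient e * a e + 1 = ∑ i, Nat.gcd j (n i)) :
    ∀ e, e ∣ m → a e + (if e = 1 then 1 else 0) = Nat.card {i : ι // e ∣ n i} := by
  apply eq_of_sum_totient_mul_eq m hm
  intro j hj
  have hjpos : 0 < j := Nat.pos_of_dvd_of_pos hj hm
  rw [sum_totient_mul_card_dvd n j hjpos, ← h j hj]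
  simp_rw [mul_add, Finset.sum_add_distrib]
  congr 1
  rw [Finset.sum_eq_single 1]
  · simp
  · intro e _ he
    simp [he]
  · intro h1
    exact absurd (Nat.one_mem_divisors.mpr hjpos.ne') h1

end Fermat.Agent.TW.Euler.TUnit
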