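/-
Program G (S56), block GW-Euler, node EU-4(d) abstract core (helper18).

**Equivariant unit theorem mod `p` from rank data.**
`L` a `ℤ`-lattice with an endomorphism `s`, `s ^ m = 1`; `n : ι → ℕ` a finite family
(orbit sizes); rank data `rank ker (s ^ j - 1) + 1 = Σ_i gcd(j, n i)` for all `j ∣ m`.
Then for every field `k'` in which `m` is invertible and every `ζ ∈ k'` with `ζ ^ m = 1`,
`dim_{k'} eigenspace (s ⊗ k', ζ) = #{i : ζ ^ n i = 1} - [ζ = 1]`.
Mathlib only.
-/
import Fermat.Agent.TW.Euler.TUnit.RankData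
import Fermat.Agent.TW.Euler.TUnit.Arith

set_option autoImplicit false

namespace Fermat.Agent.TW.Euler.TUnit

open Polynomial Module TensorProduct

section

variable {L : Type*} [AddCommGroup L] [Module.Free ℤ L] [Module.Finite ℤ L]

/-- The eigenspace dimension of the base change is the cyclotomic exponent at the order of `ζ`. -/
theorem finrank_eigenspace_baseChange_eq_exponent (s : L →ₗ[ℤ] L) (m : ℕ)
    (hs : s ^ m = 1) (a : ℕ → ℕ)
    (ha : s.charpoly = ∏ e ∈ m.divisors, (cyclotomic e ℤ) ^ (a e))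
    {k' : Type*} [Field k'] (hmk : (m : k') ≠ 0) (ζ : k') (hζ : ζ ^ m = 1) :
    finrank k' (Module.End.eigenspace (s.baseChange k') ζ) = a (orderOf ζ) := by
  rw [finrank_eigenspace_eq_rootMultiplicity (s.baseChange k') m hmk
    (baseChange_pow_eq_one k' s m hs) ζ, LinearMap.charpoly_baseChange, ha, algebraMap_int_eq,
    map_prod_cyclotomic_int, rootMultiplicity_prod_cyclotomic m hmk a ζ hζ]

/-- The exponents are determined by the rank data. -/
theorem exists_exponent_of_rank_data (s : L →ₗ[ℤ] L) (m : ℕ) (hm : 0 < m) (hs : s ^ m = 1)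
    {ι : Type*} [Fintype ι] (n : ι → ℕ)
    (hrank : ∀ j, j ∣ m →
      finrank ℤ (LinearMap.ker (s ^ j - 1)) + 1 = ∑ i, Nat.gcd j (n i)) :
    ∃ a : ℕ → ℕ, s.charpoly = ∏ e ∈ m.divisors, (cyclotomic e ℤ) ^ (a e) ∧
      ∀ e, e ∣ m → a e + (if e = 1 then 1 else 0) = Nat.card {i : ι // e ∣ n i} := by
  obtain ⟨a, ha⟩ := exists_charpoly_eq_prod_cyclotomic s m hm hs
  refine ⟨a, ha, exponent_eq_of_rank_system n m hm a ?_⟩
  intro j hj
  rw [← finrank_ker_pow_sub_one_of_charpoly s m hm hs a ha j hj]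
  exact hrank j hj

/-- **(EU-4d) abstract core, `ζ ≠ 1`.** -/
theorem finrank_eigenspace_baseChange_of_rank_data
    (s : L →ₗ[ℤ] L) (m : ℕ) (hm : 0 < m) (hs : s ^ m = 1)
    {ι : Type*} [Fintype ι] (n : ι → ℕ)
    (hrank : ∀ j, j ∣ m →
      finrank ℤ (LinearMap.ker (s ^ j - 1)) + 1 = ∑ i, Nat.gcd j (n i))
    {k' : Type*} [Field k'] (hmk : (m : k') ≠ 0) (ζ : k') (hζ : ζ ^ m = 1) (hζ1 : ζ ≠ 1) :
    finrank k' (Module.End.eigenspace (s.baseChange k') ζ) =
      Nat.card {i : ι // ζ ^ n i = 1} := by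
  obtain ⟨a, ha, hexp⟩ := exists_exponent_of_rank_data s m hm hs n hrank
  rw [finrank_eigenspace_baseChange_eq_exponent s m hs a ha hmk ζ hζ]
  have hdvd : orderOf ζ ∣ m := orderOf_dvd_of_pow_eq_one hζ
  have h1 : orderOf ζ ≠ 1 := fun h => hζ1 (orderOf_eq_one_iff.mp h)
  have h2 := hexp (orderOf ζ) hdvd
  rw [if_neg h1, add_zero] at h2
  rw [h2]
  exact Nat.card_congr (Equiv.subtypeEquivRight fun i => orderOf_dvd_iff_pow_eq_one)

/-- **(EU-4d) abstract core, `ζ = 1`.** -/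
theorem finrank_eigenspace_one_baseChange_of_rank_data
    (s : L →ₗ[ℤ] L) (m : ℕ) (hm : 0 < m) (hs : s ^ m = 1)
    {ι : Type*} [Fintype ι] (n : ι → ℕ)
    (hrank : ∀ j, j ∣ m →
      finrank ℤ (LinearMap.ker (s ^ j - 1)) + 1 = ∑ i, Nat.gcd j (n i))
    {k' : Type*} [Field k'] (hmk : (m : k') ≠ 0) :
    finrank k' (Module.End.eigenspace (s.baseChange k') 1) + 1 = Fintype.card ι := by
  obtain ⟨a, ha, hexp⟩ := exists_exponent_of_rank_data s m hm hs n hrank
  rw [finrank_eigenspace_baseChange_eq_exponent s m hs a ha hmk 1 (one_pow m), orderOf_one]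
  have h2 := hexp 1 (one_dvd m)
  rw [if_pos rfl] at h2
  rw [h2, Nat.card_eq_fintype_card]
  exact Fintype.card_congr (Equiv.subtypeUnivEquiv fun i => one_dvd _)

end

end Fermat.Agent.TW.Euler.TUnit
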