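/-
Program G (S56), block GW-Euler, node EU-4(d) (helper18).
Torsion wrapper: for a finitely generated `ℤ`-module `X` with an endomorphism `s` of finite
order `m`, the `ζ`-eigenspace dimension of `k' ⊗ X` is the sum of those of `k' ⊗ torsion X` and
`k' ⊗ (X ⧸ torsion X)`; combined with the lattice theorem this gives the equivariant unit theorem
mod `p` for modules with torsion.
Mathlib only.
-/
import Fermat.Agent.TW.Euler.TUnit.Main
import Fermat.Agent.TW.Euler.TUnit.EigenProj
import Fermat.Agent.TW.Euler.TUnit.TorsionRank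

set_option autoImplicit false

namespace Fermat.Agent.TW.Euler.TUnit

open Module TensorProduct

section

variable {X : Type*} [AddCommGroup X]

/-- Linear endomorphisms preserve the torsion submodule. -/
theorem map_mem_torsion (s : X →ₗ[ℤ] X) : ∀ x ∈ Submodule.torsion ℤ X, s x ∈ Submodule.torsion ℤ X := by
  intro x hx
  obtain ⟨a, ha⟩ := (Submodule.mem_torsion_iff x).mp hx
  refine (Submodule.mem_torsion_iff (s x)).mpr ⟨a, ?_⟩
  have h1 : (a : ℤ) • x = 0 := ha
  show (a : ℤ) • s x = 0
  rw [← map_smul, h1, map_zero]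

/-- The endomorphism induced on the torsion submodule. -/
noncomputable def torsRes (s : X →ₗ[ℤ] X) : Submodule.torsion ℤ X →ₗ[ℤ] Submodule.torsion ℤ X :=
  s.restrict (map_mem_torsion s)

theorem le_comap_torsion (s : X →ₗ[ℤ] X) :
    Submodule.torsion ℤ X ≤ (Submodule.torsion ℤ X).comap s :=
  fun x hx => map_mem_torsion s x hx

/-- The endomorphism induced on the torsion-free quotient. -/
noncomputable def torsQuot (s : X →ₗ[ℤ] X) :
    (X ⧸ Submodule.torsion ℤ X) →ₗ[ℤ] (X ⧸ Submodule.torsion ℤ X) :=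
  (Submodule.torsion ℤ X).mapQ (Submodule.torsion ℤ X) s (le_comap_torsion s)

theorem torsQuot_mkQ (s : X →ₗ[ℤ] X) (x : X) :
    torsQuot s ((Submodule.torsion ℤ X).mkQ x) = (Submodule.torsion ℤ X).mkQ (s x) := rfl

theorem torsRes_pow_eq_one (s : X →ₗ[ℤ] X) (m : ℕ) (hs : s ^ m = 1) : torsRes s ^ m = 1 := by
  unfold torsRes
  rw [Module.End.pow_restrict m (map_mem_torsion s)]
  apply LinearMap.ext
  intro x
  apply Subtype.ext
  simp [LinearMap.restrict_apply, hs]

theorem torsQuot_pow (s : X →ₗ[ℤ] X) (j : ℕ) : torsQuot s ^ j = torsQuot (s ^ j) := by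
  unfold torsQuot
  exact (Submodule.mapQ_pow _ (le_comap_torsion s) j).symm

theorem torsQuot_pow_eq_one (s : X →ₗ[ℤ] X) (m : ℕ) (hs : s ^ m = 1) : torsQuot s ^ m = 1 := by
  rw [torsQuot_pow, hs]
  unfold torsQuot
  apply LinearMap.ext
  intro x
  induction x using Submodule.Quotient.induction_on with
  | _ x => rfl

/-- The rank data of `X` and of `X ⧸ torsion` agree. -/
theorem finrank_ker_torsQuot (s : X →ₗ[ℤ] X) (j : ℕ) :
    finrank ℤ (LinearMap.ker (torsQuot s ^ j - 1)) = finrank ℤ (LinearMap.ker (s ^ j - 1)) := by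
  symm
  apply finrank_ker_eq_finrank_ker_quotient_torsion
  intro x
  rw [torsQuot_pow]
  rfl

variable [Module.Finite ℤ X]

/-- The inclusion of the torsion stays injective after any base change (the quotient is free). -/
theorem baseChange_subtype_torsion_injective (A : Type*) [CommRing A] :
    Function.Injective ((Submodule.torsion ℤ X).subtype.baseChange A) := by
  -- a section of the quotient map
  obtain ⟨σ, hσ⟩ := Module.projective_lifting_property (Submodule.torsion ℤ X).mkQ
    (LinearMap.id : (X ⧸ Submodule.torsion ℤ X) →ₗ[ℤ] _) (Submodule.mkQ_surjective _)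
  -- the retraction
  have hmem : ∀ x : X, x - σ ((Submodule.torsion ℤ X).mkQ x) ∈ Submodule.torsion ℤ X := by
    intro x
    have hk : x - σ ((Submodule.torsion ℤ X).mkQ x) ∈
        LinearMap.ker (Submodule.torsion ℤ X).mkQ := by
      rw [LinearMap.mem_ker, map_sub]
      have := LinearMap.congr_fun hσ ((Submodule.torsion ℤ X).mkQ x)
      simp only [LinearMap.comp_apply, LinearMap.id_apply] at this
      rw [this, sub_self]
    rwa [Submodule.ker_mkQ] at hk
  let r : X →ₗ[ℤ] Submodule.torsion ℤ X :=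
    (LinearMap.id - σ.comp (Submodule.torsion ℤ X).mkQ).codRestrict _ (fun x => by
      simpa using hmem x)
  have hr : r.comp (Submodule.torsion ℤ X).subtype = LinearMap.id := by
    apply LinearMap.ext
    intro t
    apply Subtype.ext
    have ht : (Submodule.torsion ℤ X).mkQ (t : X) = 0 := by
      rw [Submodule.mkQ_apply, Submodule.Quotient.mk_eq_zero]; exact t.2
    simp [r, ht]
  have hcomp : (r.baseChange A).comp ((Submodule.torsion ℤ X).subtype.baseChange A) =
      LinearMap.id := by
    rw [← LinearMap.baseChange_comp, hr, LinearMap.baseChange_id]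
  intro a b hab
  have := congrArg (r.baseChange A) hab
  rw [← LinearMap.comp_apply, ← LinearMap.comp_apply, hcomp] at this
  exact this

/-- **Torsion splitting of eigenspace dimensions.** -/
theorem finrank_eigenspace_baseChange_eq_add (s : X →ₗ[ℤ] X) (m : ℕ) (hs : s ^ m = 1)
    {k' : Type*} [Field k'] (hmk : (m : k') ≠ 0) (ζ : k') (hζ : ζ ^ m = 1) :
    finrank k' (Module.End.eigenspace (s.baseChange k') ζ) =
      finrank k' (Module.End.eigenspace ((torsRes s).baseChange k') ζ) +
        finrank k' (Module.End.eigenspace ((torsQuot s).baseChange k') ζ) := by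
  have hpow : ∀ {M : Type _} [AddCommGroup M] (u : M →ₗ[ℤ] M), u ^ m = 1 →
      (u.baseChange k') ^ m = 1 := by
    intro M _ u hu
    have h := LinearMap.baseChange_pow ℤ k' M u m
    rw [hu, LinearMap.baseChange_one] at h
    exact h.symm
  apply finrank_eigenspace_add_of_exact ((torsRes s).baseChange k') (s.baseChange k')
    ((torsQuot s).baseChange k') ((Submodule.torsion ℤ X).subtype.baseChange k')
    ((Submodule.torsion ℤ X).mkQ.baseChange k') ?_ ?_
    (baseChange_subtype_torsion_injective k')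
    (LinearMap.lTensor_surjective k' (Submodule.mkQ_surjective _)) ?_ m hmk
    (hpow _ (torsRes_pow_eq_one s m hs)) (hpow _ hs) (hpow _ (torsQuot_pow_eq_one s m hs)) ζ hζ
  · intro y
    rw [← LinearMap.comp_apply, ← LinearMap.comp_apply, ← LinearMap.baseChange_comp,
      ← LinearMap.baseChange_comp]
    rfl
  · intro y
    rw [← LinearMap.comp_apply, ← LinearMap.comp_apply, ← LinearMap.baseChange_comp,
      ← LinearMap.baseChange_comp]
    rfl
  · exact lTensor_exact k' (LinearMap.exact_subtype_mkQ (Submodule.torsion ℤ X))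
      (Submodule.mkQ_surjective _)

/-- **(EU-4d) with torsion, `ζ ≠ 1`.** -/
theorem finrank_eigenspace_baseChange_of_rank_data_torsion
    (s : X →ₗ[ℤ] X) (m : ℕ) (hm : 0 < m) (hs : s ^ m = 1)
    {ι : Type*} [Fintype ι] (n : ι → ℕ)
    (hrank : ∀ j, j ∣ m →
      finrank ℤ (LinearMap.ker (s ^ j - 1)) + 1 = ∑ i, Nat.gcd j (n i))
    {k' : Type*} [Field k'] (hmk : (m : k') ≠ 0) (ζ : k') (hζ : ζ ^ m = 1) (hζ1 : ζ ≠ 1) :
    finrank k' (Module.End.eigenspace (s.baseChange k') ζ) =
      finrank k' (Module.End.eigenspace ((torsRes s).baseChange k') ζ) +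
        Nat.card {i : ι // ζ ^ n i = 1} := by
  rw [finrank_eigenspace_baseChange_eq_add s m hs hmk ζ hζ]
  congr 1
  apply finrank_eigenspace_baseChange_of_rank_data (torsQuot s) m hm
    (torsQuot_pow_eq_one s m hs) n ?_ hmk ζ hζ hζ1
  intro j hj
  rw [finrank_ker_torsQuot]
  exact hrank j hj

/-- **(EU-4d) with torsion, `ζ = 1`.** -/
theorem finrank_eigenspace_one_baseChange_of_rank_data_torsion
    (s : X →ₗ[ℤ] X) (m : ℕ) (hm : 0 < m) (hs : s ^ m = 1)
    {ι : Type*} [Fintype ι] (n : ι → ℕ)
    (hrank : ∀ j, j ∣ m →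
      finrank ℤ (LinearMap.ker (s ^ j - 1)) + 1 = ∑ i, Nat.gcd j (n i))
    {k' : Type*} [Field k'] (hmk : (m : k') ≠ 0) :
    finrank k' (Module.End.eigenspace (s.baseChange k') 1) + 1 =
      finrank k' (Module.End.eigenspace ((torsRes s).baseChange k') 1) + Fintype.card ι := by
  rw [finrank_eigenspace_baseChange_eq_add s m hs hmk 1 (one_pow m), add_assoc]
  congr 1
  apply finrank_eigenspace_one_baseChange_of_rank_data (torsQuot s) m hm
    (torsQuot_pow_eq_one s m hs) n ?_ hmk
  intro j hj
  rw [finrank_ker_torsQuot]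
  exact hrank j hj

end

end Fermat.Agent.TW.Euler.TUnit
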