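/-
Program G (S56), block GW-Euler, node EU-4(d) CONCRETE (helper18).
The equivariant `T`-unit theorem mod `p` for a cyclic extension `L/K = ⟨σ⟩` of number fields, in
the vocabulary of `CFT/Global/HerbrandSUnits`: for a field `k'` in which `[L:K]` is invertible and
`ζ ∈ k'` with `ζ ^ [L:K] = 1`, `ζ ≠ 1`,
`dim_{k'} (k' ⊗ U_{L,T})^{σ = ζ} = dim_{k'} (k' ⊗ μ(L))^{σ = ζ} + #{v ∈ T ⊔ ∞_K : ζ ^ g_v = 1}`,
`g_v` the number of places of `L` above `v`.  No logarithmic embedding: the rank data come from the
`S`-unit theorem for the fixed fields of the `σ ^ j`.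
-/
import Fermat.Agent.TW.Euler.TUnit.Torsion
import Fermat.Agent.TW.Euler.TUnit.PrimeCount
import Fermat.Agent.TW.Euler.TUnit.InfCount

set_option autoImplicit false
set_option linter.unusedSectionVars false

open IsDedekindDomain NumberField Module

namespace Fermat.Agent.TW.Euler.TUnit

open Fermat.Agent.CFT Fermat.Agent.CFT.HerbrandSUnits

section Concrete

variable {K L : Type*} [Field K] [NumberField K] [Field L] [NumberField L] [Algebra K L]
  [IsGalois K L] (T : Set (HeightOneSpectrum (𝓞 K)))

/-- The action of `σ` on the additive group of `T_L`-units, as a `ℤ`-linear map. -/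
noncomputable def sLin (σ : Gal(L/K)) :
    Additive ((primesAbove K L T).unit L) →ₗ[ℤ] Additive ((primesAbove K L T).unit L) :=
  (sEnd T σ).toIntLinearMap

theorem sLin_apply (σ : Gal(L/K)) (x : Additive ((primesAbove K L T).unit L)) :
    sLin T σ x = sEnd T σ x := rfl

theorem sLin_one : sLin T (1 : Gal(L/K)) = 1 := by
  ext x
  rw [sLin_apply, sEnd_one]
  rfl

theorem sLin_mul (σ τ : Gal(L/K)) : sLin T (σ * τ) = sLin T σ * sLin T τ := by
  ext x
  rw [sLin_apply, sEnd_mul]
  rfl

theorem sLin_pow (σ : Gal(L/K)) (k : ℕ) : sLin T σ ^ k = sLin T (σ ^ k) := by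
  induction k with
  | zero => rw [pow_zero, pow_zero, sLin_one]
  | succ k ih => rw [pow_succ, pow_succ, sLin_mul, ih]

theorem sLin_pow_finrank (σ : Gal(L/K)) : sLin T σ ^ (finrank K L) = 1 := by
  rw [sLin_pow, ← IsGalois.card_aut_eq_finrank K L, pow_card_eq_one', sLin_one]

theorem mem_ker_sLin_pow_sub_one_iff (σ : Gal(L/K)) (j : ℕ)
    (x : Additive ((primesAbove K L T).unit L)) :
    x ∈ LinearMap.ker (sLin T σ ^ j - 1) ↔
      sUnitGal T (σ ^ j) (Additive.toMul x) = Additive.toMul x := by
  rw [LinearMap.mem_ker, LinearMap.sub_apply, sub_eq_zero, sLin_pow, sLin_apply]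
  constructor
  · intro h
    exact congrArg Additive.toMul h
  · intro h
    exact congrArg Additive.ofMul h

variable [Finite T]

/-- The `σ ^ j`-invariant `T`-units are the `T`-units of the fixed field of `σ ^ j`. -/
theorem finrank_ker_sLin_pow_sub_one (σ : Gal(L/K))
    (hσ : ∀ g : Gal(L/K), g ∈ Subgroup.zpowers σ) (j : ℕ) :
    finrank ℤ (LinearMap.ker (sLin T σ ^ j - 1)) =
      Units.rank (IntermediateField.fixedField (Subgroup.zpowers (σ ^ j))) +
        Nat.card (primesAbove K (IntermediateField.fixedField (Subgroup.zpowers (σ ^ j))) T) := by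
  set F := IntermediateField.fixedField (Subgroup.zpowers (σ ^ j)) with hF
  have hfix : F.fixingSubgroup = Subgroup.zpowers (σ ^ j) :=
    IntermediateField.fixingSubgroup_fixedField _
  have hnorm : (Subgroup.zpowers (σ ^ j)).Normal := normal_of_forall_mem_zpowers hσ _
  have hgal : IsGalois K F := IsGalois.of_fixedField_normal_subgroup (Subgroup.zpowers (σ ^ j))
  rw [← SUnits.finrank_sUnit_numberField F (primesAbove K F T)]
  have hmem : ∀ y : Additive ((primesAbove K F T).unit F),
      (MonoidHom.toAdditive (towerIncl T F)) y ∈ LinearMap.ker (sLin T σ ^ j - 1) := by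
    intro y
    rw [mem_ker_sLin_pow_sub_one_iff]
    exact sUnitGal_towerIncl T F (σ ^ j) (hfix ▸ Subgroup.mem_zpowers _) (Additive.toMul y)
  let φ : Additive ((primesAbove K F T).unit F) →+ LinearMap.ker (sLin T σ ^ j - 1) :=
    { toFun := fun y => ⟨(MonoidHom.toAdditive (towerIncl T F)) y, hmem y⟩
      map_zero' := Subtype.ext (map_zero _)
      map_add' := fun a b => Subtype.ext (map_add _ a b) }
  have hφ : Function.Bijective φ := by
    constructor
    · intro a b hab
      have h1 : (MonoidHom.toAdditive (towerIncl T F)) a =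
          (MonoidHom.toAdditive (towerIncl T F)) b := congrArg Subtype.val hab
      exact congrArg Additive.ofMul (towerIncl_injective T F (congrArg Additive.toMul h1))
    · rintro ⟨x, hx⟩
      rw [mem_ker_sLin_pow_sub_one_iff] at hx
      have hxF : (((Additive.toMul x : (primesAbove K L T).unit L) : Lˣ) : L) ∈ F := by
        rw [hF, IntermediateField.mem_fixedField_iff]
        intro g hg
        obtain ⟨k, rfl⟩ := Subgroup.mem_zpowers_iff.mp hg
        have h0 : (σ ^ j) (((Additive.toMul x : (primesAbove K L T).unit L) : Lˣ) : L) =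
            (((Additive.toMul x : (primesAbove K L T).unit L) : Lˣ) : L) := by
          have := congrArg (fun z : (primesAbove K L T).unit L => ((z : Lˣ) : L)) hx
          simpa only [coe_sUnitGal] using this
        have hstab : σ ^ j ∈ MulAction.stabilizer Gal(L/K)
            ((((Additive.toMul x : (primesAbove K L T).unit L) : Lˣ) : L)) := h0
        exact Subgroup.zpow_mem _ hstab k
      obtain ⟨y, hy⟩ := exists_towerIncl_eq T F (Additive.toMul x) hxF
      exact ⟨Additive.ofMul y, Subtype.ext (congrArg Additive.ofMul hy)⟩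
  exact ((AddEquiv.ofBijective φ hφ).toIntLinearEquiv.finrank_eq).symm

/-- **Rank data of the `T`-units of a cyclic extension.** -/
theorem rank_data_sUnits [Fintype T] (σ : Gal(L/K))
    (hσ : ∀ g : Gal(L/K), g ∈ Subgroup.zpowers σ) (j : ℕ) :
    finrank ℤ (LinearMap.ker (sLin T σ ^ j - 1)) + 1 =
      ∑ i : T ⊕ InfinitePlace K,
        Nat.gcd j (Sum.elim (fun v : T => numAbove K L v.1) (numAboveInf K L) i) := by
  set F := IntermediateField.fixedField (Subgroup.zpowers (σ ^ j)) with hF
  have hnorm : (Subgroup.zpowers (σ ^ j)).Normal := normal_of_forall_mem_zpowers hσ _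
  have hgal : IsGalois K F := IsGalois.of_fixedField_normal_subgroup (Subgroup.zpowers (σ ^ j))
  rw [finrank_ker_sLin_pow_sub_one T σ hσ j, Fintype.sum_sum_type]
  simp only [Sum.elim_inl, Sum.elim_inr]
  rw [card_primesAbove K F T]
  have hpos : 0 < Fintype.card (InfinitePlace F) := Fintype.card_pos
  have h1 : Units.rank F + 1 = Fintype.card (InfinitePlace F) := by
    unfold Units.rank
    exact Nat.sub_add_cancel hpos
  rw [add_right_comm, h1, card_infinitePlace_eq_sum K F, add_comm]
  congr 1
  · exact Finset.sum_congr rfl (fun v _ => numAbove_fixedField σ hσ j v.1)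
  · exact Finset.sum_congr rfl (fun w _ => numAboveInf_fixedField σ hσ j w)

theorem finrank_pos_of_isGalois : 0 < finrank K L := Module.finrank_pos

/-- **(EU-4d) concrete, `ζ ≠ 1`.** -/
theorem finrank_eigenspace_sUnits (σ : Gal(L/K)) (hσ : ∀ g : Gal(L/K), g ∈ Subgroup.zpowers σ)
    {k' : Type*} [Field k'] (hmk : ((finrank K L : ℕ) : k') ≠ 0) (ζ : k')
    (hζ : ζ ^ (finrank K L) = 1) (hζ1 : ζ ≠ 1) :
    finrank k' (Module.End.eigenspace ((sLin T σ).baseChange k') ζ) =
      finrank k' (Module.End.eigenspace ((torsRes (sLin T σ)).baseChange k') ζ) +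
        Nat.card {v : T // ζ ^ numAbove K L v.1 = 1} +
        Nat.card {w : InfinitePlace K // ζ ^ numAboveInf K L w = 1} := by
  have := Fintype.ofFinite T
  rw [finrank_eigenspace_baseChange_of_rank_data_torsion (sLin T σ) (finrank K L)
    Module.finrank_pos (sLin_pow_finrank T σ)
    (Sum.elim (fun v : T => numAbove K L v.1) (numAboveInf K L))
    (fun j _ => rank_data_sUnits T σ hσ j) hmk ζ hζ hζ1, add_assoc]
  congr 1
  rw [Nat.card_congr (Equiv.subtypeSum (p := fun i : T ⊕ InfinitePlace K =>
    ζ ^ (Sum.elim (fun v : T => numAbove K L v.1) (numAboveInf K L) i) = 1)), Nat.card_sum]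
  rfl

/-- **(EU-4d) concrete, `ζ = 1`.** -/
theorem finrank_eigenspace_one_sUnits (σ : Gal(L/K))
    (hσ : ∀ g : Gal(L/K), g ∈ Subgroup.zpowers σ)
    {k' : Type*} [Field k'] (hmk : ((finrank K L : ℕ) : k') ≠ 0) :
    finrank k' (Module.End.eigenspace ((sLin T σ).baseChange k') 1) + 1 =
      finrank k' (Module.End.eigenspace ((torsRes (sLin T σ)).baseChange k') 1) +
        Nat.card T + Nat.card (InfinitePlace K) := by
  have := Fintype.ofFinite T
  rw [finrank_eigenspace_one_baseChange_of_rank_data_torsion (sLin T σ) (finrank K L)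
    Module.finrank_pos (sLin_pow_finrank T σ)
    (Sum.elim (fun v : T => numAbove K L v.1) (numAboveInf K L))
    (fun j _ => rank_data_sUnits T σ hσ j) hmk, add_assoc, Fintype.card_sum,
    Nat.card_eq_fintype_card, Nat.card_eq_fintype_card]

end Concrete

end Fermat.Agent.TW.Euler.TUnit
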