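/-
Program G (S56), block GW-Euler, node EU-4(d) (helper18).
The torsion term: for a finite cyclic group `A` with an endomorphism `u`, a field `k'` of
characteristic `p` and an element `a₀ ∈ A` of order `p` with `u a₀ = c • a₀`, the `ζ`-eigenspace of
`u ⊗ k'` on `k' ⊗ A` has dimension `[ζ = c]`.  If `p ∤ |A|` then `k' ⊗ A = 0`.
Mathlib only.
-/
import Mathlib

set_option autoImplicit false

namespace Fermat.Agent.TW.Euler.TUnit

open Module TensorProduct

section CyclicTerm

variable {A : Type*} [AddCommGroup A]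

/-- An endomorphism of a cyclic group is multiplication by an integer. -/
theorem exists_eq_zsmul_of_isAddCyclic [IsAddCyclic A] (u : A →ₗ[ℤ] A) :
    ∃ c' : ℤ, ∀ b : A, u b = c' • b := by
  obtain ⟨a, ha⟩ := IsAddCyclic.exists_generator (α := A)
  obtain ⟨c', hc'⟩ := AddSubgroup.mem_zmultiples_iff.mp (ha (u a))
  refine ⟨c', fun b => ?_⟩
  obtain ⟨n, rfl⟩ := AddSubgroup.mem_zmultiples_iff.mp (ha b)
  rw [map_zsmul, ← hc', smul_comm]

theorem baseChange_eq_smul_of_forall_eq_zsmul (u : A →ₗ[ℤ] A) (c' : ℤ) (hu : ∀ b : A, u b = c' • b)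
    (k' : Type*) [Field k'] : u.baseChange k' = ((c' : ℤ) : k') • LinearMap.id := by
  apply TensorProduct.AlgebraTensorModule.curry_injective
  ext b
  change (1 : k') ⊗ₜ[ℤ] u b = ((c' : ℤ) : k') • ((1 : k') ⊗ₜ[ℤ] b)
  rw [hu b, tmul_smul, Int.cast_smul_eq_zsmul k']

open Classical in
theorem finrank_eigenspace_smul_id {V : Type*} {k' : Type*} [Field k'] [AddCommGroup V]
    [Module k' V] (c ζ : k') :
    finrank k' (Module.End.eigenspace (c • (LinearMap.id : V →ₗ[k'] V)) ζ) =
      if ζ = c then finrank k' V else 0 := by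
  split_ifs with h
  · have : Module.End.eigenspace (c • (LinearMap.id : V →ₗ[k'] V)) ζ = ⊤ := by
      rw [eq_top_iff]
      intro x _
      rw [Module.End.mem_eigenspace_iff, h]
      rfl
    rw [this, finrank_top]
  · have : Module.End.eigenspace (c • (LinearMap.id : V →ₗ[k'] V)) ζ = ⊥ := by
      rw [eq_bot_iff]
      intro x hx
      rw [Module.End.mem_eigenspace_iff] at hx
      have h1 : (c - ζ) • x = 0 := by
        rw [sub_smul, ← hx]
        exact sub_self _
      rcases smul_eq_zero.mp h1 with h2 | h2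
      · exact absurd (sub_eq_zero.mp h2).symm h
      · exact (Submodule.mem_bot k').mpr h2
    rw [this, finrank_bot]

/-- `k' ⊗ A` is one-dimensional for a finite cyclic group `A` of order divisible by
`p = char k'`. -/
theorem finrank_tensor_of_isAddCyclic [IsAddCyclic A] (p : ℕ) {k' : Type*} [Field k'] [CharP k' p]
    (hp : p ∣ Nat.card A) : finrank k' (k' ⊗[ℤ] A) = 1 := by
  obtain ⟨a, ha⟩ := IsAddCyclic.exists_generator (α := A)
  let e : ZMod (Nat.card A) ≃+ A := zmodAddEquivOfGenerator ha rfl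
  have he1 : e 1 = a := zmodAddEquivOfGenerator_apply_one ha rfl
  let φ : A →ₗ[ℤ] k' :=
    ((ZMod.castHom hp k').toAddMonoidHom.comp e.symm.toAddMonoidHom).toIntLinearMap
  have hφa : φ a = 1 := by
    change (ZMod.castHom hp k') (e.symm a) = 1
    rw [← he1, AddEquiv.symm_apply_apply, map_one]
  let f : k' ⊗[ℤ] A →ₗ[k'] k' :=
    TensorProduct.AlgebraTensorModule.lift (LinearMap.toSpanSingleton k' (A →ₗ[ℤ] k') φ)
  let g : k' →ₗ[k'] k' ⊗[ℤ] A := LinearMap.toSpanSingleton k' _ ((1 : k') ⊗ₜ[ℤ] a)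
  have hg : ∀ x : k', g x = x ⊗ₜ[ℤ] a := by
    intro x
    change x • ((1 : k') ⊗ₜ[ℤ] a) = x ⊗ₜ[ℤ] a
    rw [smul_tmul', smul_eq_mul, mul_one]
  have hfg : ∀ x : k', f (g x) = x := by
    intro x
    rw [hg]
    change x • (φ a) = x
    rw [hφa, smul_eq_mul, mul_one]
  have hgsurj : Function.Surjective g := by
    intro y
    induction y using TensorProduct.induction_on with
    | zero => exact ⟨0, map_zero _⟩
    | tmul x b =>
      obtain ⟨n, rfl⟩ := AddSubgroup.mem_zmultiples_iff.mp (ha b)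
      refine ⟨(n : k') * x, ?_⟩
      rw [hg, tmul_smul, smul_tmul', zsmul_eq_mul]
    | add y₁ y₂ h₁ h₂ =>
      obtain ⟨x₁, rfl⟩ := h₁
      obtain ⟨x₂, rfl⟩ := h₂
      exact ⟨x₁ + x₂, map_add _ _ _⟩
  have hginj : Function.Injective g := Function.LeftInverse.injective hfg
  rw [← (LinearEquiv.ofBijective g ⟨hginj, hgsurj⟩).finrank_eq, finrank_self]

/-- If `|A|` is invertible in `k'` then `k' ⊗ A = 0`. -/
theorem finrank_tensor_of_card_ne_zero [Finite A] {k' : Type*} [Field k']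
    (hw : ((Nat.card A : ℕ) : k') ≠ 0) : finrank k' (k' ⊗[ℤ] A) = 0 := by
  have hsub : Subsingleton (k' ⊗[ℤ] A) := by
    refine ⟨fun y z => ?_⟩
    suffices h : ∀ y : k' ⊗[ℤ] A, y = 0 by rw [h y, h z]
    intro y
    induction y using TensorProduct.induction_on with
    | zero => rfl
    | tmul x b =>
      have h1 : x = ((Nat.card A : ℕ) : k') * (((Nat.card A : ℕ) : k')⁻¹ * x) := by
        rw [← mul_assoc, mul_inv_cancel₀ hw, one_mul]
      rw [h1, ← smul_eq_mul, Nat.cast_smul_eq_nsmul k', smul_tmul, card_nsmul_eq_zero', tmul_zero]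
    | add y₁ y₂ h₁ h₂ => rw [h₁, h₂, add_zero]
  exact finrank_zero_of_subsingleton

open Classical in
/-- **Torsion term, cyclic form.** -/
theorem finrank_eigenspace_baseChange_of_isAddCyclic [IsAddCyclic A] [Finite A] (u : A →ₗ[ℤ] A)
    (p : ℕ) [Fact p.Prime] {k' : Type*} [Field k'] [CharP k' p] (a₀ : A)
    (ha₀ : addOrderOf a₀ = p) (c : ℤ) (hc : u a₀ = c • a₀) (ζ : k') :
    finrank k' (Module.End.eigenspace (u.baseChange k') ζ) = if ζ = (c : k') then 1 else 0 := by
  obtain ⟨c', hc'⟩ := exists_eq_zsmul_of_isAddCyclic u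
  have hcc : ((c' : ℤ) : k') = ((c : ℤ) : k') := by
    have h1 : (c' - c) • a₀ = 0 := by
      rw [sub_smul, ← hc' a₀, hc, sub_self]
    have h2 : ((addOrderOf a₀ : ℕ) : ℤ) ∣ c' - c := addOrderOf_dvd_iff_zsmul_eq_zero.mpr h1
    rw [ha₀] at h2
    exact (CharP.intCast_eq_intCast k' p).mpr ((Int.modEq_iff_dvd.mpr h2).symm)
  have hp : p ∣ Nat.card A := by
    rw [← ha₀]
    exact addOrderOf_dvd_natCard a₀
  rw [baseChange_eq_smul_of_forall_eq_zsmul u c' hc' k', finrank_eigenspace_smul_id, hcc,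
    finrank_tensor_of_isAddCyclic p hp]

/-- **Torsion term, prime-to-`p` form.** -/
theorem finrank_eigenspace_baseChange_of_card_ne_zero [Finite A] (u : A →ₗ[ℤ] A)
    {k' : Type*} [Field k'] (hw : ((Nat.card A : ℕ) : k') ≠ 0) (ζ : k') :
    finrank k' (Module.End.eigenspace (u.baseChange k') ζ) = 0 := by
  have h := Submodule.finrank_le (Module.End.eigenspace (u.baseChange k') ζ)
  rw [finrank_tensor_of_card_ne_zero hw] at h
  exact Nat.le_zero.mp h

end CyclicTerm

end Fermat.Agent.TW.Euler.TUnit
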