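/-
Program G (S56), block GW-Euler, node EU-4(d) CONCRETE, torsion term (helper18).
The torsion of the `T`-units of `L` is the group of roots of unity of `L` (finite cyclic); if `L`
contains a primitive `p`-th root of unity `ξ`, `p = char k'`, with `σ ξ = ξ ^ c`, then the
`ζ`-eigenspace of `σ ⊗ k'` on `k' ⊗ μ(L)` has dimension `[ζ = c]`.  Final form of (4d).
-/
import Fermat.Agent.TW.Euler.TUnit.Concrete
import Fermat.Agent.TW.Euler.TUnit.CyclicTerm

set_option autoImplicit false
set_option linter.unusedSectionVars false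

open IsDedekindDomain NumberField Module

namespace Fermat.Agent.TW.Euler.TUnit

open Fermat.Agent.CFT Fermat.Agent.CFT.HerbrandSUnits

section TorsionConcrete

variable {K L : Type*} [Field K] [NumberField K] [Field L] [NumberField L] [Algebra K L]
  [IsGalois K L] (T : Set (HeightOneSpectrum (𝓞 K))) [Finite T]

instance finite_torsion_sUnits :
    Finite (Submodule.torsion ℤ (Additive ((primesAbove K L T).unit L))) :=
  Module.finite_of_fg_torsion _ Submodule.torsion_isTorsion

/-- The underlying element of `L` of a torsion `T`-unit. -/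
noncomputable def torsionToField :
    Multiplicative (Submodule.torsion ℤ (Additive ((primesAbove K L T).unit L))) →* L where
  toFun a := (((Additive.toMul (Multiplicative.toAdd a).1 : (primesAbove K L T).unit L) : Lˣ) : L)
  map_one' := rfl
  map_mul' _ _ := rfl

theorem torsionToField_injective : Function.Injective (torsionToField (L := L) T) := by
  intro a b hab
  apply Multiplicative.toAdd.injective
  apply Subtype.ext
  apply Additive.toMul.injective
  apply Subtype.ext
  apply Units.ext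
  exact hab

instance isAddCyclic_torsion_sUnits :
    IsAddCyclic (Submodule.torsion ℤ (Additive ((primesAbove K L T).unit L))) := by
  have : IsCyclic (Multiplicative (Submodule.torsion ℤ (Additive ((primesAbove K L T).unit L)))) :=
    isCyclic_of_injective_ringHom (torsionToField (L := L) T) (torsionToField_injective T)
  exact isCyclic_multiplicative_iff.mp this

/-- A root of unity is a `T`-unit. -/
theorem mem_sUnit_of_pow_eq_one (S : Set (HeightOneSpectrum (𝓞 L))) (u : Lˣ) {n : ℕ} (hn : n ≠ 0)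
    (hu : u ^ n = 1) : u ∈ S.unit L := by
  intro w _
  have h1 : (w.valuation L (u : L)) ^ n = 1 := by
    rw [← map_pow, ← Units.val_pow_eq_pow_val, hu, Units.val_one, map_one]
  exact (pow_eq_one_iff_left hn).mp h1

open Classical in
/-- **Torsion term of (4d), concrete.** -/
theorem finrank_eigenspace_torsRes_sLin (σ : Gal(L/K)) (p : ℕ) [hp : Fact p.Prime]
    {k' : Type*} [Field k'] [CharP k' p] (ξ : L) (hξ : IsPrimitiveRoot ξ p) (c : ℕ)
    (hc : σ ξ = ξ ^ c) (ζ : k') :
    finrank k' (Module.End.eigenspace ((torsRes (sLin T σ)).baseChange k') ζ) =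
      if ζ = (c : k') then 1 else 0 := by
  have hξ0 : ξ ≠ 0 := hξ.ne_zero hp.out.ne_zero
  have hup : (Units.mk0 ξ hξ0) ^ p = 1 := by
    apply Units.ext
    rw [Units.val_pow_eq_pow_val, Units.val_mk0, hξ.pow_eq_one, Units.val_one]
  let y₀ : (primesAbove K L T).unit L :=
    ⟨Units.mk0 ξ hξ0, mem_sUnit_of_pow_eq_one _ _ hp.out.ne_zero hup⟩
  have hy₀p : y₀ ^ p = 1 := Subtype.ext hup
  let x₀ : Additive ((primesAbove K L T).unit L) := Additive.ofMul y₀
  have hx₀p : p • x₀ = 0 := by
    change Additive.ofMul (y₀ ^ p) = 0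
    rw [hy₀p]
    rfl
  have hx₀t : x₀ ∈ Submodule.torsion ℤ (Additive ((primesAbove K L T).unit L)) := by
    rw [Submodule.mem_torsion_iff]
    refine ⟨⟨(p : ℤ), mem_nonZeroDivisors_of_ne_zero (by exact_mod_cast hp.out.ne_zero)⟩, ?_⟩
    change (p : ℤ) • x₀ = 0
    rw [natCast_zsmul, hx₀p]
  let a₀ : Submodule.torsion ℤ (Additive ((primesAbove K L T).unit L)) := ⟨x₀, hx₀t⟩
  have ha₀p : p • a₀ = 0 := Subtype.ext hx₀p
  have ha₀1 : a₀ ≠ 0 := by
    intro h
    have h1 : x₀ = 0 := congrArg Subtype.val h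
    have h2 : y₀ = 1 := congrArg Additive.toMul h1
    have h3 : ξ = 1 := congrArg (fun z : (primesAbove K L T).unit L => ((z : Lˣ) : L)) h2
    exact hξ.ne_one hp.out.one_lt h3
  have hord : addOrderOf a₀ = p := addOrderOf_eq_prime ha₀p ha₀1
  have hact : torsRes (sLin T σ) a₀ = ((c : ℕ) : ℤ) • a₀ := by
    rw [natCast_zsmul]
    apply Subtype.ext
    change sLin T σ x₀ = c • x₀
    change Additive.ofMul (sUnitGal T σ y₀) = Additive.ofMul (y₀ ^ c)
    apply congrArg Additive.ofMul
    apply Subtype.ext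
    apply Units.ext
    change σ ξ = ((y₀ ^ c : (primesAbove K L T).unit L) : Lˣ)
    rw [hc]
    rfl
  have h := finrank_eigenspace_baseChange_of_isAddCyclic (torsRes (sLin T σ)) p a₀ hord
    ((c : ℕ) : ℤ) hact ζ
  rw [h, Int.cast_natCast]

open Classical in
/-- **(EU-4d) concrete, final form, `ζ ≠ 1`**: `L ∋ ξ` a primitive `p`-th root of unity,
`p = char k'`, `σ ξ = ξ ^ c`. -/
theorem finrank_eigenspace_sUnits_of_primitiveRoot (σ : Gal(L/K))
    (hσ : ∀ g : Gal(L/K), g ∈ Subgroup.zpowers σ) (p : ℕ) [hp : Fact p.Prime]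
    {k' : Type*} [Field k'] [CharP k' p] (hmk : ((finrank K L : ℕ) : k') ≠ 0)
    (ξ : L) (hξ : IsPrimitiveRoot ξ p) (c : ℕ) (hc : σ ξ = ξ ^ c)
    (ζ : k') (hζ : ζ ^ (finrank K L) = 1) (hζ1 : ζ ≠ 1) :
    finrank k' (Module.End.eigenspace ((sLin T σ).baseChange k') ζ) =
      (if ζ = (c : k') then 1 else 0) +
        Nat.card {v : T // ζ ^ numAbove K L v.1 = 1} +
        Nat.card {w : InfinitePlace K // ζ ^ numAboveInf K L w = 1} := by
  rw [finrank_eigenspace_sUnits T σ hσ hmk ζ hζ hζ1,
    finrank_eigenspace_torsRes_sLin T σ p ξ hξ c hc ζ]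

open Classical in
/-- **(EU-4d) concrete, final form, `ζ = 1`.** -/
theorem finrank_eigenspace_one_sUnits_of_primitiveRoot (σ : Gal(L/K))
    (hσ : ∀ g : Gal(L/K), g ∈ Subgroup.zpowers σ) (p : ℕ) [hp : Fact p.Prime]
    {k' : Type*} [Field k'] [CharP k' p] (hmk : ((finrank K L : ℕ) : k') ≠ 0)
    (ξ : L) (hξ : IsPrimitiveRoot ξ p) (c : ℕ) (hc : σ ξ = ξ ^ c) :
    finrank k' (Module.End.eigenspace ((sLin T σ).baseChange k') 1) + 1 =
      (if (1 : k') = (c : k') then 1 else 0) + Nat.card T + Nat.card (InfinitePlace K) := by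
  rw [finrank_eigenspace_one_sUnits T σ hσ hmk,
    finrank_eigenspace_torsRes_sLin T σ p ξ hξ c hc 1]

end TorsionConcrete

end Fermat.Agent.TW.Euler.TUnit
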