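/-
Program G (S56), block GW-Euler, base case: `unitEigOut : UnitEigOut` (helper18, assembler).
The equivariant `T`-unit theorem mod `p` in the literal shape of the `ArithNodesOut` integrator
(`Base/Arith/Contracts.lean`, helper17).  Inputs:
* (4d) `finrank_eigenspace_sUnits_of_primitiveRoot` (this directory, helper18);
* (U1), (U2) `Base/UnitEigGen.lean` (helper15);
* (UNIT-BRIDGE) `UnitBridge/Linear.lean` (helper7);
* (PL) `Base/PL/Bundle.lean` (helper12) + (MACKEY-0) `Base/Arith/MackeyInv.lean` (helper3).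
-/
import Fermat.Agent.TW.Euler.TUnit.TorsionConcrete
import Fermat.Agent.TW.Euler.TUnit.Rational
import Fermat.Agent.TW.Euler.Base.UnitEigGen
import Fermat.Agent.TW.Euler.UnitBridge.Linear
import Fermat.Agent.TW.Euler.Base.PL.Bundle
import Fermat.Agent.TW.Euler.Base.Arith.MackeyInv

set_option autoImplicit false
set_option linter.unusedSectionVars false
set_option linter.style.haveILetI false

open CategoryTheory Module ExtCitation TensorProduct NumberField IsDedekindDomain
open Fermat.Agent.CFT Fermat.Agent.S55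

namespace Fermat.Agent.TW.Euler.TUnit

open Fermat.Agent.TW.Euler Fermat.Agent.CFT.HerbrandSUnits Fermat.Agent.CFT.IdeleDict

local notation "Qb" => AlgebraicClosure ℚ
local notation "GQ" => (AlgebraicClosure ℚ ≃ₐ[ℚ] AlgebraicClosure ℚ)

/-- helper17's `unitAct` and helper7's `tLin` are the same linear map. -/
theorem unitAct_toIntLinearMap_eq_tLin (T : Finset Nat.Primes) (N : Subgroup GQ) [N.Normal]
    (t : GQ) : (unitAct T N t).toIntLinearMap = UnitBridge.tLin T N t := rfl

/-- The unified form of concrete (4d): both cases `ζ = 1`, `ζ ≠ 1`. -/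
theorem finrank_eigenspace_sUnits_unified {K L : Type*} [Field K] [NumberField K] [Field L]
    [NumberField L] [Algebra K L] [IsGalois K L] (T : Set (HeightOneSpectrum (𝓞 K))) [Finite T]
    (σ : Gal(L/K)) (hσ : ∀ g : Gal(L/K), g ∈ Subgroup.zpowers σ) (p : ℕ) [hp : Fact p.Prime]
    {k' : Type*} [Field k'] [CharP k' p] (hmk : ((finrank K L : ℕ) : k') ≠ 0)
    (ξ : L) (hξ : IsPrimitiveRoot ξ p) (c : ℕ) (hc : σ ξ = ξ ^ c)
    (ζ : k') (hζ : ζ ^ (finrank K L) = 1) (a b : ℕ) (ha : ζ = 1 → a = 1) (ha' : ζ ≠ 1 → a = 0)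
    (hb : ζ = (c : k') → b = 1) (hb' : ζ ≠ (c : k') → b = 0) :
    finrank k' (Module.End.eigenspace ((sLin T σ).baseChange k') ζ) + a =
      b + Nat.card {v : T // ζ ^ numAbove K L v.1 = 1} +
        Nat.card {w : InfinitePlace K // ζ ^ numAboveInf K L w = 1} := by
  classical
  have hbb : b = if ζ = (c : k') then 1 else 0 := by
    split_ifs with h
    · exact hb h
    · exact hb' h
  by_cases h1 : ζ = 1
  · subst h1
    rw [ha rfl, finrank_eigenspace_one_sUnits_of_primitiveRoot T σ hσ p hmk ξ hξ c hc, hbb]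
    congr 1
    · congr 1
      rw [Nat.card_congr (Equiv.subtypeUnivEquiv (fun v => one_pow _))]
    · rw [Nat.card_congr (Equiv.subtypeUnivEquiv (fun w => one_pow _))]
  · rw [ha' h1, add_zero,
      finrank_eigenspace_sUnits_of_primitiveRoot T σ hσ p hmk ξ hξ c hc ζ hζ h1, hbb]

/-- **(4d)** `UnitEigOut`, the literal contract of the `ArithNodesOut` integrator. -/
theorem unitEigOut : UnitEigOut := by
  intro p _ hp2 T hpT N _ hN hζ D hD hpD k' _ _ _ θ
  classical
  have hNfi : N.FiniteIndex := (globalLevel T).finiteIndex hN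
  have hGfin : Finite (GQ ⧸ N) := Subgroup.finite_quotient_of_finiteIndex
  -- (MACKEY-0) in `orbCount` form
  obtain ⟨-, hloc, hinf⟩ := Base.Mackey0.mackeyInvOut p hp2 T hpT N hN D k' θ
  -- the field of the level
  obtain ⟨F, hgal, hunr, hNF⟩ := hN
  haveI := hgal
  haveI := hunr.1
  haveI : NumberField F := numberField_of_finiteDimensional_rat F
  subst hNF
  -- a generator of `D` and a lift to `G_ℚ`
  obtain ⟨d₀, hd₀⟩ := hD.exists_generator
  obtain ⟨sg, hsgeq⟩ := QuotientGroup.mk_surjective d₀.1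
  have hsg : (QuotientGroup.mk sg : GQ ⧸ F.fixingSubgroup) ∈ D := hsgeq ▸ d₀.2
  have hd₀eq : d₀ = ⟨QuotientGroup.mk sg, hsg⟩ := Subtype.ext hsgeq.symm
  have hgen : ∀ d : D, d ∈ Subgroup.zpowers (⟨QuotientGroup.mk sg, hsg⟩ : D) := by
    rw [← hd₀eq]; exact hd₀
  set d₁ : D := ⟨QuotientGroup.mk sg, hsg⟩ with hd₁
  set ζ : k' := ((θ d₁ : k'ˣ) : k') with hζdef
  have hcharp : CharP k' p := charP_of_injective_algebraMap (algebraMap (ZMod p) k').injective p
  have hfink : Module.Finite (ZMod p) k' := Module.Finite.of_finite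
  have hdpos : 0 < finrank (ZMod p) k' := Module.finrank_pos
  -- the bundle
  set K := Base.PL.fixK F F.fixingSubgroup rfl D with hK
  set σ : Gal(F/K) := Base.PL.dEquiv F F.fixingSubgroup rfl D d₁ with hσdef
  have hσgen : ∀ g : Gal(F/K), g ∈ Subgroup.zpowers σ :=
    Base.PL.dEquiv_generator F F.fixingSubgroup rfl D d₁ hgen
  have hDfin : Finite D := inferInstance
  have hrank : finrank K F = Nat.card D := Base.PL.finrank_fixK F F.fixingSubgroup rfl D
  have hmk : ((finrank K F : ℕ) : k') ≠ 0 := by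
    rw [hrank, Ne, CharP.cast_eq_zero_iff k' p]
    exact hpD
  have hζpow : ζ ^ (finrank K F) = 1 := by
    rw [hrank, hζdef, ← Units.val_pow_eq_pow_val, ← map_pow, pow_card_eq_one', map_one,
      Units.val_one]
  have hσapply : ∀ x : F, ((σ x : F) : Qb) = sg (x : Qb) := by
    intro x
    rw [hσdef, Base.PL.dEquiv_apply]
    exact Base.PL.restrict_coe F sg x
  -- (U2): the root of unity
  obtain ⟨ξ, c, hξ, hξN, hξσ, hcω⟩ :=
    Base.exists_primitiveRoot_omegaD' F.fixingSubgroup hζ D k' sg hsg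
  have hξF : ξ ∈ F := by
    haveI : IsGalois ℚ Qb := Fermat.Agent.S54.FrobExists.isGalois_rat_algebraicClosure
    rw [← InfiniteGalois.fixedField_fixingSubgroup F, IntermediateField.mem_fixedField_iff]
    exact hξN
  have hξ' : IsPrimitiveRoot (⟨ξ, hξF⟩ : F) p :=
    IsPrimitiveRoot.of_map_of_injective (f := F.val) hξ F.val.injective
  have hcσ : σ (⟨ξ, hξF⟩ : F) = (⟨ξ, hξF⟩ : F) ^ c := by
    apply Subtype.ext
    rw [hσapply]
    exact hξσ
  -- (U1) + (UNIT-BRIDGE)
  rw [Base.unitEig_eq_eigenspace T F.fixingSubgroup D sg hsg hgen θ,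
    unitAct_toIntLinearMap_eq_tLin,
    UnitBridge.finrank_eigenspace_tLin F K T hunr sg σ hσapply k' ζ]
  -- (PL) + (MACKEY-0): the orbit counts are the place counts
  have hsum : ∑ ℓ ∈ T, orbCount D (locBar F.fixingSubgroup ℓ) θ =
      Nat.card {v : primesOver K (↑T : Set Nat.Primes) // ζ ^ numAbove K F v.1 = 1} := by
    have h1 := Base.PL.sum_h0Loc_baseMod_cyclic (p := p) F F.fixingSubgroup rfl D θ T d₁ hgen
    rw [Finset.sum_congr rfl (fun ℓ _ => hloc ℓ), ← Finset.mul_sum] at h1
    exact Nat.eq_of_mul_eq_mul_left hdpos h1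
  have hinf' : orbCount D (infBar F.fixingSubgroup) θ =
      Nat.card {w : InfinitePlace K // ζ ^ numAboveInf K F w = 1} := by
    have h1 := Base.PL.hInf_baseMod_cyclic (p := p) F F.fixingSubgroup rfl D θ d₁ hgen
    rw [hinf] at h1
    exact Nat.eq_of_mul_eq_mul_left hdpos h1
  rw [hsum, hinf']
  haveI : Finite (primesOver K (↑T : Set Nat.Primes)) := finite_primesOver K T
  exact finrank_eigenspace_sUnits_unified (primesOver K (↑T : Set Nat.Primes)) σ hσgen p hmk
    (⟨ξ, hξF⟩ : F) hξ' c hcσ ζ hζpow _ _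
    (fun h => if_pos ((Base.eq_one_iff_apply_gen F.fixingSubgroup D θ sg hsg hgen).mpr h))
    (fun h => if_neg (fun h' => h ((Base.eq_one_iff_apply_gen F.fixingSubgroup D θ sg hsg hgen).mp h')))
    (fun h => if_pos ((Base.eq_omegaD_iff F.fixingSubgroup hζ D θ sg hsg hgen hcω).mpr h))
    (fun h => if_neg (fun h' => h ((Base.eq_omegaD_iff F.fixingSubgroup hζ D θ sg hsg hgen hcω).mp h')))

end Fermat.Agent.TW.Euler.TUnit
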