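/-
Program G (S56), block GW-Euler, node EU-4(d) abstract core (helper18).
Endomorphisms of finite order prime to the characteristic: semisimplicity, and
geometric multiplicity = algebraic multiplicity.
Mathlib only.
-/
import Mathlib

set_option autoImplicit false

namespace Fermat.Agent.TW.Euler.TUnit

open Polynomial Module

section FiniteOrder

variable {K : Type*} [Field K] {Y : Type*} [AddCommGroup Y] [Module K Y] [FiniteDimensional K Y]

/-- An endomorphism with `u ^ m = 1`, `m` invertible in the field, is semisimple. -/
theorem isSemisimple_of_pow_eq_one (u : Module.End K Y) (m : ℕ) (hmK : (m : K) ≠ 0)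
    (hu : u ^ m = 1) : u.IsSemisimple := by
  have hsep : (X ^ m - 1 : K[X]).Separable := X_pow_sub_one_separable_iff.mpr hmK
  refine Module.End.isSemisimple_of_squarefree_aeval_eq_zero hsep.squarefree ?_
  simp [hu]

/-- For an endomorphism of finite order prime to the characteristic, the dimension of an
eigenspace is the root multiplicity in the characteristic polynomial. -/
theorem finrank_eigenspace_eq_rootMultiplicity (u : Module.End K Y) (m : ℕ) (hmK : (m : K) ≠ 0)
    (hu : u ^ m = 1) (z : K) :
    finrank K (u.eigenspace z) = u.charpoly.rootMultiplicity z := by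
  have hss := isSemisimple_of_pow_eq_one u m hmK hu
  rw [← LinearMap.finrank_maxGenEigenspace_eq,
    (Module.End.isFinitelySemisimple_iff_isSemisimple.mpr hss).maxGenEigenspace_eq_eigenspace]

/-- An eigenvalue of an endomorphism of order dividing `m` is an `m`-th root of unity. -/
theorem pow_eq_one_of_hasEigenvalue (u : Module.End K Y) (m : ℕ) (hu : u ^ m = 1) {z : K}
    (hz : u.HasEigenvalue z) : z ^ m = 1 := by
  obtain ⟨v, hv⟩ := hz.exists_hasEigenvector
  have h1 : (u ^ m) v = z ^ m • v := by
    have := hv.pow_apply m
    simpa using this
  rw [hu, Module.End.one_apply] at h1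
  have h2 : (z ^ m - 1) • v = 0 := by rw [sub_smul, one_smul, ← h1, sub_self]
  rcases smul_eq_zero.mp h2 with h | h
  · exact sub_eq_zero.mp h
  · exact absurd h hv.2

end FiniteOrder

end Fermat.Agent.TW.Euler.TUnit
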