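/-
Program G (S56), block GW-Euler, node EU-4(d) abstract core (helper18).
The characteristic polynomial of a finite-order endomorphism of a `ℤ`-lattice is a product of
cyclotomic polynomials.
Mathlib only.
-/
import Fermat.Agent.TW.Euler.TUnit.FiniteOrder

set_option autoImplicit false

namespace Fermat.Agent.TW.Euler.TUnit

open Polynomial Module TensorProduct

section

variable {L : Type*} [AddCommGroup L] [Module.Free ℤ L] [Module.Finite ℤ L]

/-- Base change of a finite-order endomorphism has finite order. -/
theorem baseChange_pow_eq_one (A : Type*) [CommRing A] (s : L →ₗ[ℤ] L) (m : ℕ)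
    (hs : s ^ m = 1) : (s.baseChange A) ^ m = 1 := by
  have h := map_pow (Module.End.baseChangeHom ℤ A L) s m
  rw [hs, map_one] at h
  exact h.symm

/-- Every normalized factor of the rational characteristic polynomial of a lattice endomorphism
of order dividing `m` is a cyclotomic polynomial `Φ_e`, `e ∣ m`. -/
theorem exists_eq_cyclotomic_of_mem_normalizedFactors (s : L →ₗ[ℤ] L) (m : ℕ) (hm : 0 < m)
    (hs : s ^ m = 1) {q : ℚ[X]}
    (hq : q ∈ UniqueFactorizationMonoid.normalizedFactors (s.charpoly.map (Int.castRingHom ℚ))) :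
    ∃ e ∈ m.divisors, q = cyclotomic e ℚ := by
  classical
  set fQ := s.charpoly.map (Int.castRingHom ℚ) with hfQ
  have hirr : Irreducible q := UniqueFactorizationMonoid.irreducible_of_normalized_factor q hq
  have hmonic : q.Monic := by
    have h1 : normalize q = q := UniqueFactorizationMonoid.normalize_normalized_factor q hq
    rw [← h1]
    exact monic_normalize hirr.ne_zero
  have hdvd : q ∣ fQ := UniqueFactorizationMonoid.dvd_of_mem_normalizedFactors hq
  -- a complex root of `q`
  obtain ⟨z, hz⟩ := IsAlgClosed.exists_aeval_eq_zero ℂ q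
    (degree_pos_of_irreducible hirr).ne'
  -- `z` is a root of the complex characteristic polynomial
  have hcp : (s.baseChange ℂ).charpoly = s.charpoly.map (algebraMap ℤ ℂ) :=
    LinearMap.charpoly_baseChange s ℂ
  have hroot : (s.baseChange ℂ).charpoly.IsRoot z := by
    rw [hcp, IsRoot.def]
    obtain ⟨g, hg⟩ := hdvd
    have h2 : aeval z fQ = 0 := by rw [hg, map_mul, hz, zero_mul]
    have h3 : aeval z fQ = eval z (s.charpoly.map (algebraMap ℤ ℂ)) := by
      rw [hfQ, aeval_def, eval₂_map, eval_map]
      congr 1
    rw [← h3, h2]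
  have heig : Module.End.HasEigenvalue (s.baseChange ℂ) z :=
    (Module.End.hasEigenvalue_iff_isRoot_charpoly _ _).mpr hroot
  have hzm : z ^ m = 1 :=
    pow_eq_one_of_hasEigenvalue _ m (baseChange_pow_eq_one ℂ s m hs) heig
  have he_dvd : orderOf z ∣ m := orderOf_dvd_of_pow_eq_one hzm
  have he_pos : 0 < orderOf z := Nat.pos_of_dvd_of_pos he_dvd hm
  have hprim : IsPrimitiveRoot z (orderOf z) := IsPrimitiveRoot.orderOf z
  refine ⟨orderOf z, Nat.mem_divisors.mpr ⟨he_dvd, hm.ne'⟩, ?_⟩
  rw [cyclotomic_eq_minpoly_rat hprim he_pos]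
  exact minpoly.eq_of_irreducible_of_monic hirr hz hmonic

/-- The characteristic polynomial of a lattice endomorphism of order dividing `m` is a product of
cyclotomic polynomials `Φ_e`, `e ∣ m`. -/
theorem exists_charpoly_eq_prod_cyclotomic (s : L →ₗ[ℤ] L) (m : ℕ) (hm : 0 < m)
    (hs : s ^ m = 1) :
    ∃ a : ℕ → ℕ, s.charpoly = ∏ e ∈ m.divisors, (cyclotomic e ℤ) ^ (a e) := by
  classical
  set fQ := s.charpoly.map (Int.castRingHom ℚ) with hfQ
  have hfmonic : fQ.Monic := (LinearMap.charpoly_monic s).map _
  set M := UniqueFactorizationMonoid.normalizedFactors fQ with hM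
  -- `fQ` is the product of its normalized factors
  have hprod : M.prod = fQ := by
    have hassoc : Associated M.prod fQ := UniqueFactorizationMonoid.prod_normalizedFactors hfmonic.ne_zero
    have hMmonic : ∀ q ∈ M, q.Monic := by
      intro q hq
      have hirr : Irreducible q := UniqueFactorizationMonoid.irreducible_of_normalized_factor q hq
      have h1 : normalize q = q := UniqueFactorizationMonoid.normalize_normalized_factor q hq
      rw [← h1]
      exact monic_normalize hirr.ne_zero
    have hpm : (M.map id).prod.Monic := monic_multiset_prod_of_monic M id hMmonic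
    rw [Multiset.map_id] at hpm
    exact eq_of_monic_of_associated hpm hfmonic hassoc
  refine ⟨fun e => M.count (cyclotomic e ℚ), ?_⟩
  apply Polynomial.map_injective (Int.castRingHom ℚ) Int.cast_injective
  rw [← hfQ, Polynomial.map_prod]
  simp only [Polynomial.map_pow, map_cyclotomic_int]
  rw [← hprod, Finset.prod_multiset_count]
  have hsub : M.toFinset ⊆ m.divisors.image (fun e => cyclotomic e ℚ) := by
    intro q hq
    rw [Multiset.mem_toFinset] at hq
    obtain ⟨e, he, rfl⟩ := exists_eq_cyclotomic_of_mem_normalizedFactors s m hm hs hq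
    exact Finset.mem_image_of_mem _ he
  rw [Finset.prod_subset hsub]
  · rw [Finset.prod_image]
    intro x _ y _ hxy
    exact cyclotomic_injective (R := ℚ) hxy
  · intro q _ hq
    rw [Multiset.mem_toFinset] at hq
    rw [Multiset.count_eq_zero_of_notMem hq, pow_zero]

end

end Fermat.Agent.TW.Euler.TUnit
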