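/-
Program G (S56), block GW-Euler, node EU-4(d) abstract core (helper18).
Root multiplicities of products of cyclotomic polynomials at roots of unity.
Mathlib only.
-/
import Fermat.Agent.TW.Euler.TUnit.CycloFactor

set_option autoImplicit false

namespace Fermat.Agent.TW.Euler.TUnit

open Polynomial Module

section

variable {K : Type*} [Field K]

/-- The multiplicity of a root of unity `ζ` in `Φ_e` over a field where `e ≠ 0`. -/
theorem count_roots_cyclotomic [DecidableEq K] (e : ℕ) (heK : (e : K) ≠ 0) (ζ : K) :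
    (cyclotomic e K).roots.count ζ = if e = orderOf ζ then 1 else 0 := by
  haveI : NeZero (e : K) := ⟨heK⟩
  have he0 : e ≠ 0 := by rintro rfl; simp at heK
  rw [Multiset.count_eq_of_nodup roots_cyclotomic_nodup]
  have hmem : ζ ∈ (cyclotomic e K).roots ↔ e = orderOf ζ := by
    rw [mem_roots (cyclotomic_ne_zero e K), isRoot_cyclotomic_iff]
    constructor
    · intro h; exact h.eq_orderOf
    · intro h; rw [h]; exact IsPrimitiveRoot.orderOf ζ
  by_cases h : e = orderOf ζ
  · rw [if_pos (hmem.mpr h), if_pos h]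
  · rw [if_neg (fun h' => h (hmem.mp h')), if_neg h]

/-- The multiplicity of an `m`-th root of unity `ζ` in `∏_{e ∣ m} Φ_e ^ a e` is `a (orderOf ζ)`. -/
theorem rootMultiplicity_prod_cyclotomic (m : ℕ) (hmK : (m : K) ≠ 0) (a : ℕ → ℕ) (ζ : K)
    (hζ : ζ ^ m = 1) :
    (∏ e ∈ m.divisors, (cyclotomic e K) ^ (a e)).rootMultiplicity ζ = a (orderOf ζ) := by
  classical
  have hm0 : m ≠ 0 := by rintro rfl; simp at hmK
  have hne : (∏ e ∈ m.divisors, (cyclotomic e K) ^ (a e)) ≠ 0 := by
    rw [Finset.prod_ne_zero_iff]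
    intro e _
    exact pow_ne_zero _ (cyclotomic_ne_zero e K)
  rw [← count_roots, roots_prod _ _ hne, Multiset.count_bind]
  simp only [roots_pow, Multiset.count_nsmul]
  have hterm : ∀ e ∈ m.divisors,
      a e * (cyclotomic e K).roots.count ζ = if e = orderOf ζ then a e else 0 := by
    intro e he
    have hedvd : e ∣ m := (Nat.mem_divisors.mp he).1
    have heK : (e : K) ≠ 0 := by
      intro h0
      obtain ⟨c, hc⟩ := hedvd
      apply hmK
      rw [hc, Nat.cast_mul, h0, zero_mul]
    rw [count_roots_cyclotomic e heK ζ]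
    split_ifs <;> simp
  have hsum : (Multiset.map (fun e => a e * (cyclotomic e K).roots.count ζ) m.divisors.val).sum
      = ∑ e ∈ m.divisors, a e * (cyclotomic e K).roots.count ζ := rfl
  rw [hsum, Finset.sum_congr rfl hterm, Finset.sum_ite_eq' m.divisors (orderOf ζ) a]
  rw [if_pos]
  exact Nat.mem_divisors.mpr ⟨orderOf_dvd_of_pow_eq_one hζ, hm0⟩

/-- Mapping `∏_{e ∣ m} Φ_e ^ a e` from `ℤ[X]` to `K[X]`. -/
theorem map_prod_cyclotomic_int (m : ℕ) (a : ℕ → ℕ) :
    (∏ e ∈ m.divisors, (cyclotomic e ℤ) ^ (a e)).map (Int.castRingHom K) =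
      ∏ e ∈ m.divisors, (cyclotomic e K) ^ (a e) := by
  rw [Polynomial.map_prod]
  simp only [Polynomial.map_pow, map_cyclotomic_int]

end

end Fermat.Agent.TW.Euler.TUnit
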