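/-
Program G (S56), block GW-Euler, node EU-4(d) abstract core (helper18).
For an endomorphism `u` of finite order `m` (invertible in an algebraically closed field `K`),
`dim ker (u ^ j - 1) = Σ_{z ^ j = 1} (multiplicity of z in charpoly u)`.
Mathlib only.
-/
import Fermat.Agent.TW.Euler.TUnit.FiniteOrder

set_option autoImplicit false

namespace Fermat.Agent.TW.Euler.TUnit

open Polynomial Module

section

variable {K : Type*} [Field K] {Y : Type*} [AddCommGroup Y] [Module K Y]

/-- `u` preserves `ker (u ^ j - 1)`. -/
theorem map_mem_ker_pow_sub_one (u : Module.End K Y) (j : ℕ) :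
    ∀ x ∈ LinearMap.ker (u ^ j - 1), u x ∈ LinearMap.ker (u ^ j - 1) := by
  intro x hx
  rw [LinearMap.mem_ker] at hx ⊢
  have hcomm : (u ^ j - 1) (u x) = u ((u ^ j - 1) x) := by
    have : (u ^ j - 1) * u = u * (u ^ j - 1) := by
      rw [sub_mul, mul_sub, one_mul, mul_one, ← pow_succ, ← pow_succ']
    exact LinearMap.congr_fun this x
  rw [hcomm, hx, map_zero]

theorem pow_apply_of_mem_eigenspace (u : Module.End K Y) (z : K) {x : Y}
    (hx : x ∈ u.eigenspace z) (n : ℕ) : (u ^ n) x = z ^ n • x := by
  rw [Module.End.mem_eigenspace_iff] at hx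
  induction n with
  | zero => simp
  | succ n ih =>
    rw [pow_succ', Module.End.mul_apply, ih, map_smul, hx, smul_smul, pow_succ]

/-- Eigenvectors for a `j`-th root of unity lie in `ker (u ^ j - 1)`. -/
theorem eigenspace_le_ker_pow_sub_one (u : Module.End K Y) (j : ℕ) (z : K) (hz : z ^ j = 1) :
    u.eigenspace z ≤ LinearMap.ker (u ^ j - 1) := by
  intro x hx
  rw [LinearMap.mem_ker, LinearMap.sub_apply, Module.End.one_apply,
    pow_apply_of_mem_eigenspace u z hx j, hz, one_smul, sub_self]

variable [FiniteDimensional K Y]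

/-- The restriction of `u` to `ker (u ^ j - 1)`. -/
noncomputable def resKer (u : Module.End K Y) (j : ℕ) :
    Module.End K (LinearMap.ker (u ^ j - 1)) :=
  u.restrict (map_mem_ker_pow_sub_one u j)

theorem resKer_pow_apply (u : Module.End K Y) (j n : ℕ) (x : LinearMap.ker (u ^ j - 1)) :
    (((resKer u j) ^ n) x : Y) = (u ^ n) x := by
  induction n generalizing x with
  | zero => simp
  | succ n ih =>
    rw [pow_succ, Module.End.mul_apply, ih, pow_succ, Module.End.mul_apply]
    rfl

theorem resKer_pow_eq_one (u : Module.End K Y) (j m : ℕ) (hu : u ^ m = 1) :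
    (resKer u j) ^ m = 1 := by
  apply LinearMap.ext
  intro x
  apply Subtype.ext
  rw [resKer_pow_apply, hu]
  rfl

theorem resKer_pow_self (u : Module.End K Y) (j : ℕ) : (resKer u j) ^ j = 1 := by
  apply LinearMap.ext
  intro x
  apply Subtype.ext
  rw [resKer_pow_apply]
  have hx := x.2
  rw [LinearMap.mem_ker, LinearMap.sub_apply, sub_eq_zero] at hx
  rw [hx]
  rfl

/-- Eigenspaces of the restriction, for `j`-th roots of unity, have the same dimension. -/
theorem finrank_eigenspace_resKer (u : Module.End K Y) (j : ℕ) (z : K) (hz : z ^ j = 1) :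
    finrank K ((resKer u j).eigenspace z) = finrank K (u.eigenspace z) := by
  have h1 : (resKer u j).eigenspace z =
      Submodule.comap (LinearMap.ker (u ^ j - 1)).subtype (u.eigenspace z) := by
    unfold resKer Module.End.eigenspace
    exact Module.End.genEigenspace_restrict u _ 1 z _
  rw [h1]
  exact (Submodule.comapSubtypeEquivOfLe (eigenspace_le_ker_pow_sub_one u j z hz)).finrank_eq

/-- Key count: over an algebraically closed field, for `u ^ m = 1` with `m` invertible and
`0 < j`, `dim ker (u ^ j - 1) = Σ_{z ^ j = 1} rootMultiplicity z (charpoly u)`. -/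
theorem finrank_ker_pow_sub_one_eq_sum [IsAlgClosed K] (u : Module.End K Y) (m : ℕ)
    (hmK : (m : K) ≠ 0) (hu : u ^ m = 1) (j : ℕ) (hj : 0 < j) :
    finrank K (LinearMap.ker (u ^ j - 1)) =
      ∑ z ∈ nthRootsFinset j (1 : K), u.charpoly.rootMultiplicity z := by
  classical
  set w := resKer u j with hw
  have hwm : w ^ m = 1 := resKer_pow_eq_one u j m hu
  -- the characteristic polynomial of the restriction splits, with roots among the j-th roots of 1
  have hsplit : w.charpoly.Splits := IsAlgClosed.splits _
  have hcard : w.charpoly.roots.card = finrank K (LinearMap.ker (u ^ j - 1)) := by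
    rw [splits_iff_card_roots.mp hsplit, LinearMap.charpoly_natDegree]
  have hsub : w.charpoly.roots.toFinset ⊆ nthRootsFinset j (1 : K) := by
    intro z hz
    rw [Multiset.mem_toFinset, mem_roots (LinearMap.charpoly_monic w).ne_zero] at hz
    have heig : w.HasEigenvalue z := (Module.End.hasEigenvalue_iff_isRoot_charpoly _ _).mpr hz
    rw [mem_nthRootsFinset hj]
    exact pow_eq_one_of_hasEigenvalue w j (resKer_pow_self u j) heig
  rw [← hcard, ← Multiset.toFinset_sum_count_eq, Finset.sum_subset hsub]
  · apply Finset.sum_congr rfl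
    intro z hz
    rw [mem_nthRootsFinset hj] at hz
    rw [count_roots, ← finrank_eigenspace_eq_rootMultiplicity w m hmK hwm z,
      ← finrank_eigenspace_eq_rootMultiplicity u m hmK hu z, hw,
      finrank_eigenspace_resKer u j z hz]
  · intro z _ hz
    rw [Multiset.mem_toFinset] at hz
    exact Multiset.count_eq_zero_of_notMem hz

end

end Fermat.Agent.TW.Euler.TUnit
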