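/-
Program G (S56), block GW-Euler, node EU-4(d) abstract core (helper18).
Ranks of the kernels of `s ^ j - 1` on a lattice in terms of the cyclotomic exponents of the
characteristic polynomial: `rank ker (s ^ j - 1) = Σ_{e ∣ j} φ(e) a(e)`.
Mathlib only.
-/
import Fermat.Agent.TW.Euler.TUnit.CycloRoot
import Fermat.Agent.TW.Euler.TUnit.KerCount

set_option autoImplicit false

namespace Fermat.Agent.TW.Euler.TUnit

open Polynomial Module TensorProduct

section

variable {L : Type*} [AddCommGroup L] [Module.Free ℤ L] [Module.Finite ℤ L]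

/-- Flat base change of a kernel: ranks agree. -/
theorem finrank_ker_baseChange (K : Type*) [Field K] [CharZero K] (g : L →ₗ[ℤ] L) :
    finrank K (LinearMap.ker (g.baseChange K)) = finrank ℤ (LinearMap.ker g) := by
  have e := LinearMap.tensorKerEquiv K K g
  have h1 : g.baseChange K = AlgebraTensorModule.lTensor K K g := rfl
  rw [h1, ← e.finrank_eq, Module.finrank_baseChange]

theorem baseChange_pow_sub_one (K : Type*) [Field K] (s : L →ₗ[ℤ] L) (j : ℕ) :
    (s ^ j - 1).baseChange K = (s.baseChange K) ^ j - 1 := by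
  rw [LinearMap.baseChange_sub, LinearMap.baseChange_pow ℤ K L s j, LinearMap.baseChange_one ℤ L]

/-- Sum over the `j`-th roots of unity in `ℂ` of a function of the order. -/
theorem sum_nthRootsFinset_orderOf (j : ℕ) (a : ℕ → ℕ) :
    ∑ z ∈ nthRootsFinset j (1 : ℂ), a (orderOf z) = ∑ e ∈ j.divisors, Nat.totient e * a e := by
  classical
  rw [IsPrimitiveRoot.nthRoots_one_eq_biUnion_primitiveRoots, Finset.sum_biUnion]
  · apply Finset.sum_congr rfl
    intro e he
    have hepos : 0 < e := Nat.pos_of_mem_divisors he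
    have hconst : ∀ z ∈ primitiveRoots e ℂ, a (orderOf z) = a e := by
      intro z hz
      rw [mem_primitiveRoots hepos] at hz
      rw [← hz.eq_orderOf]
    rw [Finset.sum_congr rfl hconst, Finset.sum_const, Complex.card_primitiveRoots, smul_eq_mul]
  · intro e _ e' _ hne
    exact IsPrimitiveRoot.disjoint hne

/-- The rank of `ker (s ^ j - 1)` in terms of the cyclotomic exponents. -/
theorem finrank_ker_pow_sub_one_of_charpoly (s : L →ₗ[ℤ] L) (m : ℕ) (hm : 0 < m)
    (hs : s ^ m = 1) (a : ℕ → ℕ)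
    (ha : s.charpoly = ∏ e ∈ m.divisors, (cyclotomic e ℤ) ^ (a e)) (j : ℕ) (hj : j ∣ m) :
    finrank ℤ (LinearMap.ker (s ^ j - 1)) = ∑ e ∈ j.divisors, Nat.totient e * a e := by
  have hjpos : 0 < j := Nat.pos_of_dvd_of_pos hj hm
  have hmC : (m : ℂ) ≠ 0 := by exact_mod_cast hm.ne'
  set u := s.baseChange ℂ with hu
  have hum : u ^ m = 1 := baseChange_pow_eq_one ℂ s m hs
  have hcp : u.charpoly = ∏ e ∈ m.divisors, (cyclotomic e ℂ) ^ (a e) := by
    rw [hu, LinearMap.charpoly_baseChange, ha, algebraMap_int_eq, map_prod_cyclotomic_int]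
  rw [← finrank_ker_baseChange ℂ (s ^ j - 1), baseChange_pow_sub_one ℂ s j,
    finrank_ker_pow_sub_one_eq_sum u m hmC hum j hjpos, ← sum_nthRootsFinset_orderOf]
  apply Finset.sum_congr rfl
  intro z hz
  rw [mem_nthRootsFinset hjpos] at hz
  have hzm : z ^ m = 1 := by
    obtain ⟨c, rfl⟩ := hj
    rw [pow_mul, hz, one_pow]
  rw [hcp, rootMultiplicity_prod_cyclotomic m hmC a z hzm]

end

end Fermat.Agent.TW.Euler.TUnit
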