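/-
Program G (S56), block GW-Euler, node EU-4(d) (helper18).
Ranks of kernels are insensitive to torsion: for a `ℤ`-module `X` with an endomorphism `g`
inducing `gL` on `L = X ⧸ torsion`, `rank ker g = rank ker gL`.
Mathlib only.
-/
import Mathlib

set_option autoImplicit false

namespace Fermat.Agent.TW.Euler.TUnit

open Module TensorProduct nonZeroDivisors

section

variable {X : Type*} [AddCommGroup X]

/-- `dim_ℚ (ℚ ⊗ M) = rank_ℤ M` for every abelian group `M`. -/
theorem finrank_rat_tensor (M : Type*) [AddCommGroup M] :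
    finrank ℚ (ℚ ⊗[ℤ] M) = finrank ℤ M := by
  have h2 := IsLocalizedModule.finrank_eq ℤ⁰ (TensorProduct.mk ℤ ℚ M 1) le_rfl
  rw [← h2]
  exact IsFractionRing.finrank_right_eq ℤ ℚ (ℚ ⊗[ℤ] M)

/-- Flat base change of a kernel to `ℚ`: ranks agree (no freeness needed). -/
theorem finrank_ker_baseChange_rat (g : X →ₗ[ℤ] X) :
    finrank ℚ (LinearMap.ker (g.baseChange ℚ)) = finrank ℤ (LinearMap.ker g) := by
  have e := LinearMap.tensorKerEquiv ℚ ℚ g
  have h1 : g.baseChange ℚ = AlgebraTensorModule.lTensor ℚ ℚ g := rfl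
  rw [h1, ← e.finrank_eq, finrank_rat_tensor]

/-- `ℚ ⊗ torsion = 0`. -/
theorem rat_tensor_torsion_eq_zero (x : ℚ ⊗[ℤ] (Submodule.torsion ℤ X)) : x = 0 := by
  induction x using TensorProduct.induction_on with
  | zero => rfl
  | tmul r t =>
    obtain ⟨⟨a, ha⟩, hat⟩ := (Submodule.mem_torsion_iff (t : X)).mp t.2
    have ha0 : (a : ℤ) ≠ 0 := nonZeroDivisors.ne_zero ha
    have hat' : a • t = 0 := by
      apply Subtype.ext
      simpa using hat
    have h1 : r = a • (r / (a : ℚ)) := by
      rw [zsmul_eq_mul]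
      field_simp
    rw [h1, TensorProduct.smul_tmul, hat', TensorProduct.tmul_zero]
  | add x y hx hy => rw [hx, hy, add_zero]

/-- The quotient map by the torsion becomes bijective after tensoring with `ℚ`. -/
theorem baseChange_mkQ_torsion_bijective :
    Function.Bijective ((Submodule.torsion ℤ X).mkQ.baseChange ℚ) := by
  constructor
  · -- injective: the kernel is the image of `ℚ ⊗ torsion = 0`
    rw [← LinearMap.ker_eq_bot, eq_bot_iff]
    intro x hx
    have hex : Function.Exact ((Submodule.torsion ℤ X).subtype.baseChange ℚ)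
        ((Submodule.torsion ℤ X).mkQ.baseChange ℚ) := by
      have := lTensor_exact ℚ (LinearMap.exact_subtype_mkQ (Submodule.torsion ℤ X))
        (Submodule.mkQ_surjective _)
      exact this
    obtain ⟨y, rfl⟩ := (hex x).mp hx
    rw [rat_tensor_torsion_eq_zero y, map_zero]
    exact Submodule.zero_mem _
  · exact LinearMap.lTensor_surjective ℚ (Submodule.mkQ_surjective _)

/-- **Ranks of kernels ignore torsion.** -/
theorem finrank_ker_eq_finrank_ker_quotient_torsion (g : X →ₗ[ℤ] X)
    (gL : (X ⧸ Submodule.torsion ℤ X) →ₗ[ℤ] (X ⧸ Submodule.torsion ℤ X))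
    (hcomm : ∀ x, gL ((Submodule.torsion ℤ X).mkQ x) = (Submodule.torsion ℤ X).mkQ (g x)) :
    finrank ℤ (LinearMap.ker g) = finrank ℤ (LinearMap.ker gL) := by
  rw [← finrank_ker_baseChange_rat g, ← finrank_ker_baseChange_rat gL]
  set q := (Submodule.torsion ℤ X).mkQ.baseChange ℚ with hq
  have hqb : Function.Bijective q := baseChange_mkQ_torsion_bijective
  have hcommQ : ∀ y, (gL.baseChange ℚ) (q y) = q ((g.baseChange ℚ) y) := by
    intro y
    induction y using TensorProduct.induction_on with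
    | zero => simp
    | tmul r x =>
      have h1 := hcomm x
      simp only [Submodule.mkQ_apply] at h1
      simp [hq, h1]
    | add a b ha hb => simp only [map_add, ha, hb]
  let e : (ℚ ⊗[ℤ] X) ≃ₗ[ℚ] (ℚ ⊗[ℤ] (X ⧸ Submodule.torsion ℤ X)) := LinearEquiv.ofBijective q hqb
  have hmap : Submodule.map (e : (ℚ ⊗[ℤ] X) →ₗ[ℚ] _) (LinearMap.ker (g.baseChange ℚ)) =
      LinearMap.ker (gL.baseChange ℚ) := by
    ext z
    constructor
    · rintro ⟨y, hy, rfl⟩
      rw [LinearMap.mem_ker]
      show (gL.baseChange ℚ) (q y) = 0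
      rw [hcommQ, LinearMap.mem_ker.mp hy, map_zero]
    · intro hz
      obtain ⟨y, rfl⟩ := hqb.2 z
      refine ⟨y, ?_, rfl⟩
      show y ∈ LinearMap.ker (g.baseChange ℚ)
      rw [LinearMap.mem_ker] at hz ⊢
      have hz' : (gL.baseChange ℚ) (q y) = 0 := hz
      rw [hcommQ] at hz'
      exact hqb.1 (by rw [hz', map_zero])
  rw [← hmap]
  exact (LinearEquiv.finrank_map_eq e _).symm

end

end Fermat.Agent.TW.Euler.TUnit
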